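/-
S48lib / X1 / Wp / Lattice (helper7).
The Weierstrass function `wp τ z = ℘(z; ℤτ + ℤ)` as a function of `τ ∈ ℍ`: the `ℤ × ℤ`-indexed
lattice sum, evenness, periodicity, and the modular transformation
`wp (γ • τ) (z / (cτ + d)) = (cτ + d)² wp τ z`.
-/
import Mathlib
import Fermat.Agent.ProgramR.LevelOne.JInjective

set_option autoImplicit false

noncomputable section

open UpperHalfPlane hiding I
open Complex MatrixGroups
open scoped PeriodPair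

namespace Fermat.Agent.S48lib.X1.Wp

open Fermat.Agent.ProgramR.LevelOne

/-- the period pair `(τ, 1)` -/
def pp (τ : ℍ) : PeriodPair := periodPairOf 1 one_ne_zero τ

/-- `℘(z; ℤτ + ℤ)` -/
def wp (τ : ℍ) (z : ℂ) : ℂ := ℘[pp τ] z

/-- the lattice point `mτ + n` -/
def latPt (τ : ℍ) (x : ℤ × ℤ) : ℂ := (x.1 : ℂ) * τ + x.2

/-- the summand of `wp`, indexed by `ℤ × ℤ` -/
def wpTerm (τ : ℍ) (z : ℂ) (x : ℤ × ℤ) : ℂ :=
  1 / (z - latPt τ x) ^ 2 - 1 / (latPt τ x) ^ 2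

lemma mem_lattice_pp {τ : ℍ} {x : ℂ} :
    x ∈ (pp τ).lattice ↔ ∃ m n : ℤ, x = (m : ℂ) * τ + n := by
  rw [pp, mem_lattice_periodPairOf]
  constructor
  · rintro ⟨m, n, h⟩; exact ⟨m, n, by rw [← h]; ring⟩
  · rintro ⟨m, n, h⟩; exact ⟨m, n, by rw [h]; ring⟩

lemma latPt_mem_lattice (τ : ℍ) (x : ℤ × ℤ) : latPt τ x ∈ (pp τ).lattice :=
  mem_lattice_pp.2 ⟨x.1, x.2, rfl⟩

lemma hasSum_wpTerm (τ : ℍ) (z : ℂ) : HasSum (wpTerm τ z) (wp τ z) := by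
  have h := (pp τ).hasSum_weierstrassP z
  rw [← (pp τ).latticeEquivProd.symm.toEquiv.hasSum_iff] at h
  have e : wpTerm τ z = (fun l : (pp τ).lattice => 1 / (z - l) ^ 2 - 1 / (l : ℂ) ^ 2) ∘
      ⇑(pp τ).latticeEquivProd.symm.toEquiv := by
    funext x
    simp only [Function.comp_apply, LinearEquiv.coe_toEquiv]
    rw [(pp τ).latticeEquiv_symm_apply]
    simp [wpTerm, latPt, pp]
  rw [e]
  exact h

lemma wp_eq_tsum (τ : ℍ) (z : ℂ) : wp τ z = ∑' x : ℤ × ℤ, wpTerm τ z x :=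
  (hasSum_wpTerm τ z).tsum_eq.symm

lemma wp_neg (τ : ℍ) (z : ℂ) : wp τ (-z) = wp τ z := (pp τ).weierstrassP_neg z

lemma wp_add_latPt (τ : ℍ) (z : ℂ) (x : ℤ × ℤ) : wp τ (z + latPt τ x) = wp τ z :=
  (pp τ).weierstrassP_add_coe z ⟨latPt τ x, latPt_mem_lattice τ x⟩

lemma wp_add_int_mul (τ : ℍ) (z : ℂ) (m n : ℤ) : wp τ (z + ((m : ℂ) * τ + n)) = wp τ z :=
  wp_add_latPt τ z (m, n)

/-- right multiplication by `γ ∈ SL(2,ℤ)` on `ℤ × ℤ` -/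
def vecMulEquiv (γ : SL(2, ℤ)) : ℤ × ℤ ≃ ℤ × ℤ where
  toFun x := (x.1 * γ 0 0 + x.2 * γ 1 0, x.1 * γ 0 1 + x.2 * γ 1 1)
  invFun x := (x.1 * γ 1 1 - x.2 * γ 1 0, -x.1 * γ 0 1 + x.2 * γ 0 0)
  left_inv x := by
    have hdet : γ 0 0 * γ 1 1 - γ 0 1 * γ 1 0 = 1 := by
      have := γ.det_coe; rwa [Matrix.det_fin_two] at this
    ext
    · simp only; linear_combination x.1 * hdet
    · simp only; linear_combination x.2 * hdet
  right_inv x := by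
    have hdet : γ 0 0 * γ 1 1 - γ 0 1 * γ 1 0 = 1 := by
      have := γ.det_coe; rwa [Matrix.det_fin_two] at this
    ext
    · simp only; linear_combination x.1 * hdet
    · simp only; linear_combination x.2 * hdet

lemma coe_smul_eq (γ : SL(2, ℤ)) (τ : ℍ) :
    ((γ • τ : ℍ) : ℂ) = ((γ 0 0 : ℂ) * τ + γ 0 1) / ((γ 1 0 : ℂ) * τ + γ 1 1) := by
  rw [UpperHalfPlane.coe_specialLinearGroup_apply]
  simp

lemma denom_eq (γ : SL(2, ℤ)) (τ : ℍ) : denom γ τ = (γ 1 0 : ℂ) * τ + γ 1 1 := by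
  simp [denom]

lemma latPt_smul (γ : SL(2, ℤ)) (τ : ℍ) (x : ℤ × ℤ) :
    latPt (γ • τ) x = latPt τ (vecMulEquiv γ x) / denom γ τ := by
  have hd : denom γ τ ≠ 0 := denom_ne_zero _ _
  rw [eq_div_iff hd, latPt, latPt, coe_smul_eq, ← denom_eq]
  simp only [vecMulEquiv, Equiv.coe_fn_mk]
  rw [add_mul, mul_assoc, div_mul_cancel₀ _ hd, denom_eq]
  push_cast
  ring

/-- **modular transformation of `℘`** -/
theorem wp_smul (γ : SL(2, ℤ)) (τ : ℍ) (z : ℂ) :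
    wp (γ • τ) (z / denom γ τ) = denom γ τ ^ 2 * wp τ z := by
  have hd : denom γ τ ≠ 0 := denom_ne_zero _ _
  rw [wp_eq_tsum, wp_eq_tsum, ← (vecMulEquiv γ).tsum_eq (wpTerm τ z), ← tsum_mul_left]
  refine tsum_congr fun x => ?_
  rw [wpTerm, wpTerm, latPt_smul, ← sub_div, div_pow, div_pow, one_div_div, one_div_div]
  ring

end Fermat.Agent.S48lib.X1.Wp
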