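/-
S48lib / X1 / Wp / Row (helper7).
The row sums `∑_{n ∈ ℤ} 1/(x + n)² = (2πi)² φ(e(x))`, `φ(u) = u/(1-u)²`, `e(x) = exp(2πi x)`, for every
`x ∈ ℂ ∖ ℤ` (Mathlib has it on the upper half plane; extended by the identity theorem).
-/
import Mathlib

set_option autoImplicit false

noncomputable section

open UpperHalfPlane hiding I
open Complex Filter Topology
open scoped Real

namespace Fermat.Agent.S48lib.X1.Wp

/-- `e(x) = exp(2πi x)` -/
def ee (x : ℂ) : ℂ := cexp (2 * π * I * x)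

lemma ee_add (x y : ℂ) : ee (x + y) = ee x * ee y := by
  rw [ee, ee, ee, mul_add, Complex.exp_add]

lemma ee_neg (x : ℂ) : ee (-x) = (ee x)⁻¹ := by
  rw [ee, ee, mul_neg, Complex.exp_neg]

lemma ee_ne_zero (x : ℂ) : ee x ≠ 0 := Complex.exp_ne_zero _

lemma ee_intCast (n : ℤ) : ee n = 1 := by
  rw [ee, mul_comm]
  exact Complex.exp_int_mul_two_pi_mul_I n

lemma ee_int_mul (n : ℤ) (x : ℂ) : ee (n * x) = ee x ^ n := by
  rw [ee, ee, ← Complex.exp_int_mul]
  congr 1
  ring

lemma ee_nat_mul (n : ℕ) (x : ℂ) : ee (n * x) = ee x ^ n := by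
  have := ee_int_mul n x
  simpa using this

lemma norm_ee (x : ℂ) : ‖ee x‖ = Real.exp (-2 * π * x.im) := by
  rw [ee, Complex.norm_exp]
  congr 1
  simp only [mul_re, re_ofNat, ofReal_re, im_ofNat, ofReal_im, mul_zero, sub_zero, Complex.I_re,
    mul_im, zero_mul, add_zero, Complex.I_im]
  ring

lemma norm_ee_lt_one {x : ℂ} (hx : 0 < x.im) : ‖ee x‖ < 1 := by
  rw [norm_ee, Real.exp_lt_one_iff]
  have := Real.pi_pos
  nlinarith

lemma ee_eq_one_iff {x : ℂ} : ee x = 1 ↔ ∃ n : ℤ, (n : ℂ) = x := by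
  rw [ee, Complex.exp_eq_one_iff]
  have h2 : (2 * π * I : ℂ) ≠ 0 := by
    simp [Real.pi_ne_zero]
  constructor
  · rintro ⟨n, hn⟩
    refine ⟨n, ?_⟩
    have : (2 * π * I : ℂ) * x = (2 * π * I) * n := by rw [hn]; ring
    exact (mul_left_cancel₀ h2 this).symm
  · rintro ⟨n, rfl⟩
    exact ⟨n, by ring⟩

lemma ee_ne_one {x : ℂ} (hx : x ∈ Complex.integerComplement) : ee x ≠ 1 := fun h => hx (by
  obtain ⟨n, hn⟩ := ee_eq_one_iff.1 h
  exact ⟨n, hn⟩)

/-- `φ(u) = u/(1-u)²` -/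
def phi (u : ℂ) : ℂ := u / (1 - u) ^ 2

lemma phi_zero : phi 0 = 0 := by simp [phi]

lemma phi_inv (u : ℂ) : phi u⁻¹ = phi u := by
  by_cases hu : u = 0
  · subst hu; simp [phi]
  by_cases h1 : u = 1
  · subst h1; simp [phi]
  have h1' : 1 - u ≠ 0 := sub_ne_zero.2 (Ne.symm h1)
  have h2 : 1 - u⁻¹ ≠ 0 := by
    rw [sub_ne_zero]
    intro h
    exact h1 (by rw [← inv_inv u, ← h, inv_one])
  rw [phi, phi, div_eq_div_iff (pow_ne_zero 2 h2) (pow_ne_zero 2 h1')]
  field_simp
  ring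

lemma hasSum_phi {u : ℂ} (hu : ‖u‖ < 1) : HasSum (fun k : ℕ => (k : ℂ) * u ^ k) (phi u) :=
  hasSum_coe_mul_geometric_of_norm_lt_one hu

lemma norm_phi_le {u : ℂ} {r : ℝ} (hu : ‖u‖ ≤ r) (hr : r < 1) :
    ‖phi u‖ ≤ r / (1 - r) ^ 2 := by
  have h0 : 0 ≤ r := (norm_nonneg u).trans hu
  have h1 : 1 - r ≤ ‖1 - u‖ := by
    have := norm_sub_norm_le (1 : ℂ) u
    rw [norm_one] at this
    linarith
  have h2 : 0 < 1 - r := by linarith
  rw [phi, norm_div, norm_pow]
  exact div_le_div₀ h0 hu (pow_pos h2 2) (pow_le_pow_left₀ h2.le h1 2)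

lemma phi_eq_iff {a b : ℂ} (ha : a ≠ 1) (hb : b ≠ 1) :
    phi a = phi b ↔ a = b ∨ a * b = 1 := by
  have ha' : 1 - a ≠ 0 := sub_ne_zero.2 (Ne.symm ha)
  have hb' : 1 - b ≠ 0 := sub_ne_zero.2 (Ne.symm hb)
  rw [phi, phi, div_eq_div_iff (pow_ne_zero 2 ha') (pow_ne_zero 2 hb')]
  constructor
  · intro h
    have h3 : (a - b) * (1 - a * b) = 0 := by linear_combination h
    rcases mul_eq_zero.1 h3 with h4 | h4
    · exact Or.inl (sub_eq_zero.1 h4)
    · exact Or.inr (sub_eq_zero.1 h4).symm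
  · rintro (h | h)
    · rw [h]
    · linear_combination (b - a) * h

/-- the row sum -/
def rowSum (x : ℂ) : ℂ := ∑' n : ℤ, 1 / (x + n) ^ 2

lemma summable_row (x : ℂ) : Summable fun n : ℤ => 1 / (x + n) ^ 2 := by
  have h := EisensteinSeries.linear_right_summable x 1 (k := 2) le_rfl
  refine h.congr fun n => ?_
  simp

lemma hasSum_row (x : ℂ) : HasSum (fun n : ℤ => 1 / (x + n) ^ 2) (rowSum x) :=
  (summable_row x).hasSum

lemma rowSum_upper (x : ℍ) : rowSum x = (2 * π * I) ^ 2 * phi (ee x) := by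
  have h := EisensteinSeries.qExpansion_identity (k := 1) le_rfl x
  have h2 := (hasSum_phi (norm_ee_lt_one x.im_pos)).tsum_eq
  rw [rowSum]
  simp only [Nat.reduceAdd] at h
  rw [h, ← h2, ee]
  simp only [Nat.factorial_one, Nat.cast_one, div_one, pow_one]
  congr 1
  ring

lemma differentiableOn_rowSum : DifferentiableOn ℂ rowSum Complex.integerComplement := by
  intro x₀ hx₀
  obtain ⟨ε, hε, hball⟩ := Metric.isOpen_iff.1 Complex.isOpen_compl_range_intCast x₀ hx₀
  have hlow : ∀ n : ℤ, ε ≤ ‖x₀ + n‖ := by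
    intro n
    by_contra hlt
    push Not at hlt
    have hmem : ((-n : ℤ) : ℂ) ∈ Metric.ball x₀ ε := by
      rw [Metric.mem_ball, dist_comm, dist_eq_norm]
      simpa [sub_neg_eq_add] using hlt
    exact hball hmem ⟨-n, rfl⟩
  have hlow2 : ∀ (n : ℤ) (w : ℂ), ‖w - x₀‖ < ε / 2 → ‖x₀ + n‖ / 2 ≤ ‖w + n‖ := by
    intro n w hw
    have h1 := hlow n
    have h3 : ‖x₀ + n‖ - ‖w - x₀‖ ≤ ‖w + n‖ := by
      have := norm_sub_norm_le (x₀ + n) (-(w - x₀))
      rw [norm_neg] at this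
      have e : x₀ + n - -(w - x₀) = w + n := by ring
      rw [e] at this
      exact this
    linarith
  have hd : DifferentiableOn ℂ (fun w : ℂ => ∑' n : ℤ, 1 / (w + n) ^ 2)
      (Metric.ball x₀ (ε / 2)) := by
    refine differentiableOn_tsum_of_summable_norm (u := fun n : ℤ => 4 * ‖1 / (x₀ + n) ^ 2‖)
      ((summable_row x₀).norm.mul_left 4) ?_ Metric.isOpen_ball ?_
    · intro n w hw
      rw [Metric.mem_ball, dist_eq_norm] at hw
      have hne : w + n ≠ 0 := by
        intro h0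
        have h1 := hlow n
        have h2 := hlow2 n w hw
        rw [h0, norm_zero] at h2
        linarith
      have hdw : DifferentiableAt ℂ (fun y : ℂ => (y + (n : ℂ)) ^ 2) w :=
        (differentiableAt_id.add_const (n : ℂ)).pow 2
      exact ((differentiableAt_const (1 : ℂ)).div hdw (pow_ne_zero 2 hne)).differentiableWithinAt
    · intro n w hw
      rw [Metric.mem_ball, dist_eq_norm] at hw
      have h1 := hlow n
      have h2 := hlow2 n w hw
      have h4 : 0 < ‖x₀ + n‖ := lt_of_lt_of_le hε h1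
      have h5 : 0 < ‖w + n‖ := lt_of_lt_of_le (by positivity) h2
      rw [norm_div, norm_div, norm_one, norm_pow, norm_pow]
      rw [show 4 * (1 / ‖x₀ + (n : ℂ)‖ ^ 2) = 1 / (‖x₀ + (n : ℂ)‖ / 2) ^ 2 by
        field_simp; ring]
      exact one_div_le_one_div_of_le (by positivity) (pow_le_pow_left₀ (by positivity) h2 2)
  exact (hd.differentiableAt (Metric.ball_mem_nhds x₀ (half_pos hε))).differentiableWithinAt

lemma differentiableOn_phi_ee :
    DifferentiableOn ℂ (fun x : ℂ => (2 * π * I) ^ 2 * phi (ee x)) Complex.integerComplement := by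
  intro x hx
  have hne : (1 - ee x) ^ 2 ≠ 0 := pow_ne_zero 2 (sub_ne_zero.2 (Ne.symm (ee_ne_one hx)))
  have hee : DifferentiableAt ℂ ee x := by
    unfold ee
    exact (differentiableAt_id.const_mul _).cexp
  have h1 : DifferentiableAt ℂ (fun y : ℂ => ee y / (1 - ee y) ^ 2) x :=
    hee.div (((differentiableAt_const (1 : ℂ)).sub hee).pow 2) hne
  exact (h1.const_mul _).differentiableWithinAt

/-- **the row sum** on `ℂ ∖ ℤ` -/
theorem rowSum_eq {x : ℂ} (hx : x ∈ Complex.integerComplement) :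
    rowSum x = (2 * π * I) ^ 2 * phi (ee x) := by
  have hopen : IsOpen Complex.integerComplement := Complex.isOpen_compl_range_intCast
  have hconn : IsPreconnected Complex.integerComplement := by
    have hc : (Set.range ((↑) : ℤ → ℂ)).Countable := Set.countable_range _
    exact (hc.isConnected_compl_of_one_lt_rank
      (by simp only [rank_real_complex, Nat.one_lt_ofNat])).isPreconnected
  have hI : (I : ℂ) ∈ Complex.integerComplement := by
    have := UpperHalfPlane.coe_mem_integerComplement UpperHalfPlane.I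
    simpa using this
  have hev : rowSum =ᶠ[𝓝 (I : ℂ)] fun x : ℂ => (2 * π * I) ^ 2 * phi (ee x) := by
    have hU : {y : ℂ | 0 < y.im} ∈ 𝓝 (I : ℂ) :=
      (isOpen_lt continuous_const Complex.continuous_im).mem_nhds (by simp)
    filter_upwards [hU] with y hy
    exact rowSum_upper ⟨y, hy⟩
  exact (differentiableOn_rowSum.analyticOnNhd hopen).eqOn_of_preconnected_of_eventuallyEq
    (differentiableOn_phi_ee.analyticOnNhd hopen) hconn hI hev hx

end Fermat.Agent.S48lib.X1.Wp
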