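/-
S48lib / X1 / Wp / QExp (helper7).
The `q`-product form of `℘`: for `z ∉ ℤτ + ℤ`, with `w = e(z)`, `q = e(τ)`, `φ(u) = u/(1-u)²`,
`℘(z; τ) = (2πi)² (1/12 + φ(w) + ∑_{k ≥ 1} (φ(w q^k) + φ(w⁻¹ q^k) - 2 φ(q^k)))`.
-/
import Fermat.Agent.S48lib.X1.Wp.Lattice
import Fermat.Agent.S48lib.X1.Wp.Row

set_option autoImplicit false

noncomputable section

open UpperHalfPlane hiding I
open Complex Filter Topology MatrixGroups
open scoped Real

namespace Fermat.Agent.S48lib.X1.Wp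

/-- `∑_{n ∈ ℤ} 1/n² = π²/3` (the term `n = 0` being `0`) -/
lemma hasSum_int_inv_sq : HasSum (fun n : ℤ => 1 / (n : ℂ) ^ 2) ((π : ℂ) ^ 2 / 3) := by
  have h0 : HasSum (fun n : ℕ => 1 / (n : ℂ) ^ 2) ((π : ℂ) ^ 2 / 6) := by
    have h2 := Complex.ofRealCLM.hasSum hasSum_zeta_two
    simp only [Complex.ofRealCLM_apply] at h2
    convert h2 using 2 <;> push_cast <;> rfl
  have h1 : HasSum (fun n : ℕ => 1 / (((-((n : ℤ) + 1) : ℤ)) : ℂ) ^ 2) ((π : ℂ) ^ 2 / 6) := by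
    have h3 := (hasSum_nat_add_iff' (f := fun n : ℕ => 1 / (n : ℂ) ^ 2) 1).2 h0
    simp only [Finset.range_one, Finset.sum_singleton, Nat.cast_zero, ne_eq, OfNat.ofNat_ne_zero,
      not_false_eq_true, zero_pow, div_zero, sub_zero] at h3
    refine h3.congr_fun fun n => ?_
    push_cast
    ring
  have h4 := HasSum.of_nat_of_neg_add_one (f := fun n : ℤ => 1 / (n : ℂ) ^ 2)
    (by simpa using h0) h1
  convert h4 using 1
  ring

/-- the row `m ≠ 0` of the lattice sum -/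
lemma hasSum_wpTerm_row (τ : ℍ) (z : ℂ) (m : ℤ) :
    HasSum (fun n : ℤ => wpTerm τ z (m, n)) (rowSum (z - m * τ) - rowSum (m * τ)) := by
  have h1 : HasSum (fun n : ℤ => 1 / (z - latPt τ (m, n)) ^ 2) (rowSum (z - m * τ)) := by
    have h := (Equiv.neg ℤ).hasSum_iff.2 (hasSum_row (z - m * τ))
    refine h.congr_fun fun n => ?_
    simp only [latPt, Function.comp_apply, Equiv.neg_apply]
    push_cast
    ring_nf
  have h2 : HasSum (fun n : ℤ => 1 / (latPt τ (m, n)) ^ 2) (rowSum (m * τ)) :=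
    (hasSum_row _).congr_fun fun n => by simp only [latPt]
  exact h1.sub h2

/-- the row `m = 0` of the lattice sum -/
lemma hasSum_wpTerm_row_zero (τ : ℍ) (z : ℂ) :
    HasSum (fun n : ℤ => wpTerm τ z (0, n)) (rowSum z - (π : ℂ) ^ 2 / 3) := by
  have h1 : HasSum (fun n : ℤ => 1 / (z - latPt τ (0, n)) ^ 2) (rowSum z) := by
    have h := (Equiv.neg ℤ).hasSum_iff.2 (hasSum_row z)
    refine h.congr_fun fun n => ?_
    simp only [latPt, Function.comp_apply, Equiv.neg_apply]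
    push_cast
    ring_nf
  have h2 : HasSum (fun n : ℤ => 1 / (latPt τ (0, n)) ^ 2) ((π : ℂ) ^ 2 / 3) :=
    hasSum_int_inv_sq.congr_fun fun n => by simp [latPt]
  exact h1.sub h2

/-- the value of the `m`-th row -/
def rowVal (τ : ℍ) (z : ℂ) (m : ℤ) : ℂ :=
  if m = 0 then rowSum z - (π : ℂ) ^ 2 / 3 else rowSum (z - m * τ) - rowSum (m * τ)

lemma hasSum_rowVal (τ : ℍ) (z : ℂ) : HasSum (rowVal τ z) (wp τ z) := by
  refine (hasSum_wpTerm τ z).prod_fiberwise fun m => ?_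
  by_cases hm : m = 0
  · subst hm
    simpa [rowVal] using hasSum_wpTerm_row_zero τ z
  · simpa [rowVal, hm] using hasSum_wpTerm_row τ z m

lemma sub_mem_integerComplement {τ : ℍ} {z : ℂ} (hz : z ∉ (pp τ).lattice) (m : ℤ) :
    z - m * τ ∈ Complex.integerComplement := by
  rintro ⟨n, hn⟩
  exact hz (mem_lattice_pp.2 ⟨m, n, by rw [hn]; ring⟩)

lemma int_mul_mem_integerComplement (τ : ℍ) {m : ℤ} (hm : m ≠ 0) :
    (m : ℂ) * τ ∈ Complex.integerComplement := by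
  rintro ⟨n, hn⟩
  have h := congrArg Complex.im hn
  simp only [Complex.intCast_im, Complex.mul_im, Complex.intCast_re, zero_mul, add_zero,
    UpperHalfPlane.coe_im] at h
  have h2 : (m : ℝ) * τ.im ≠ 0 := mul_ne_zero (by exact_mod_cast hm) τ.im_pos.ne'
  exact h2 h.symm

lemma two_pi_I_sq : (2 * π * I : ℂ) ^ 2 = -(4 * (π : ℂ) ^ 2) := by
  rw [mul_pow, Complex.I_sq]; ring

lemma two_pi_I_sq_ne_zero : (2 * π * I : ℂ) ^ 2 ≠ 0 :=
  pow_ne_zero 2 Complex.two_pi_I_ne_zero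

lemma ee_sub_int_mul (z : ℂ) (τ : ℂ) (m : ℤ) : ee (z - m * τ) = ee z * ee τ ^ (-m) := by
  rw [sub_eq_add_neg, ee_add, ← neg_mul, ← Int.cast_neg, ee_int_mul]

lemma rowVal_eq {τ : ℍ} {z : ℂ} (hz : z ∉ (pp τ).lattice) (m : ℤ) :
    rowVal τ z m = (2 * π * I) ^ 2 *
      (if m = 0 then phi (ee z) + 1 / 12 else phi (ee z * ee τ ^ (-m)) - phi (ee τ ^ m)) := by
  by_cases hm : m = 0
  · subst hm
    have h := sub_mem_integerComplement hz 0
    simp only [Int.cast_zero, zero_mul, sub_zero] at h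
    simp only [rowVal, if_true, rowSum_eq h, mul_add, two_pi_I_sq]
    ring
  · simp only [rowVal, hm, if_false, rowSum_eq (sub_mem_integerComplement hz m),
      rowSum_eq (int_mul_mem_integerComplement τ hm), ee_sub_int_mul, ee_int_mul, mul_sub]

/-- the `k`-th term of the `q`-product form of `℘` -/
def pwTerm (w q : ℂ) (k : ℕ) : ℂ :=
  phi (w * q ^ (k + 1)) + phi (w⁻¹ * q ^ (k + 1)) - 2 * phi (q ^ (k + 1))

/-- `℘ / (2πi)²` as a function of `w = e(z)` and `q = e(τ)` -/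
def pw (w q : ℂ) : ℂ := 1 / 12 + phi w + ∑' k : ℕ, pwTerm w q k

lemma rowVal_add_neg {τ : ℍ} {z : ℂ} (hz : z ∉ (pp τ).lattice) (k : ℕ) :
    rowVal τ z ((k : ℤ) + 1) + rowVal τ z (-((k : ℤ) + 1)) =
      (2 * π * I) ^ 2 * pwTerm (ee z) (ee τ) k := by
  have h1 : ((k : ℤ) + 1) ≠ 0 := by omega
  have h2 : -((k : ℤ) + 1) ≠ 0 := by omega
  rw [rowVal_eq hz, rowVal_eq hz, if_neg h1, if_neg h2, ← mul_add, pwTerm]
  congr 1
  have e1 : ee τ ^ ((k : ℤ) + 1) = ee τ ^ (k + 1) := by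
    rw [← Nat.cast_one (R := ℤ), ← Nat.cast_add, zpow_natCast]
  rw [neg_neg, zpow_neg, e1]
  have e2 : ee z * (ee τ ^ (k + 1))⁻¹ = ((ee z)⁻¹ * ee τ ^ (k + 1))⁻¹ := by
    rw [mul_inv, inv_inv]
  rw [e2, phi_inv, phi_inv]
  ring

theorem hasSum_pwTerm {τ : ℍ} {z : ℂ} (hz : z ∉ (pp τ).lattice) :
    HasSum (pwTerm (ee z) (ee τ)) (wp τ z / (2 * π * I) ^ 2 - 1 / 12 - phi (ee z)) := by
  have h1 := (hasSum_rowVal τ z).nat_add_neg
  have h2 := (hasSum_nat_add_iff' 1).2 h1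
  simp only [Finset.range_one, Finset.sum_singleton, Nat.cast_zero, neg_zero] at h2
  have h3 : HasSum (fun k : ℕ => (2 * π * I) ^ 2 * pwTerm (ee z) (ee τ) k)
      (wp τ z - rowVal τ z 0) := by
    have e : wp τ z + rowVal τ z 0 - (rowVal τ z 0 + rowVal τ z 0) = wp τ z - rowVal τ z 0 := by
      ring
    rw [← e]
    refine h2.congr_fun fun k => ?_
    rw [← rowVal_add_neg hz]
    push_cast
    rfl
  have h4 := h3.mul_left ((2 * π * I : ℂ) ^ 2)⁻¹
  simp only [inv_mul_cancel_left₀ two_pi_I_sq_ne_zero] at h4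
  have e5 : wp τ z / (2 * π * I) ^ 2 - 1 / 12 - phi (ee z) =
      ((2 * π * I : ℂ) ^ 2)⁻¹ * (wp τ z - rowVal τ z 0) := by
    rw [rowVal_eq hz, if_pos rfl]
    field_simp [two_pi_I_sq_ne_zero]
    ring
  rw [e5]
  exact h4

lemma summable_pwTerm {τ : ℍ} {z : ℂ} (hz : z ∉ (pp τ).lattice) :
    Summable (pwTerm (ee z) (ee τ)) := (hasSum_pwTerm hz).summable

/-- **the `q`-product form of `℘`** -/
theorem wp_eq {τ : ℍ} {z : ℂ} (hz : z ∉ (pp τ).lattice) :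
    wp τ z = (2 * π * I) ^ 2 * pw (ee z) (ee τ) := by
  rw [pw, (hasSum_pwTerm hz).tsum_eq]
  field_simp [two_pi_I_sq_ne_zero]
  ring

end Fermat.Agent.S48lib.X1.Wp
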