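/-
S48lib / X1 / Wp / Fricke (helper7).
The Fricke functions `f_v = (E₄E₆/Δ) ℘((v₀τ + v₁)/M; τ)/(2πi)²` of level `M`: transformation under
`SL(2,ℤ)`, dependence on `v` modulo `M` and sign, the `q`-product form.
-/
import Fermat.Agent.S48lib.X1.Wp.QExp
import Fermat.Agent.ProgramR.Defs

set_option autoImplicit false

noncomputable section

open UpperHalfPlane hiding I
open Complex Filter Topology MatrixGroups ModularForm EisensteinSeries
open scoped Real Manifold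

namespace Fermat.Agent.S48lib.X1.Wp

open Fermat.Agent.ProgramR.LevelOne

local notation "Δ" => ModularForm.discriminant

/-- the division point `(v₀τ + v₁)/M` -/
def divPt (M : ℕ) (v : Fin 2 → ℤ) (τ : ℍ) : ℂ := ((v 0 : ℂ) * τ + v 1) / M

/-- the Fricke function `f_v` of level `M` -/
def fricke (M : ℕ) (v : Fin 2 → ℤ) (τ : ℍ) : ℂ :=
  E₄ τ * E₆ τ / Δ τ * (wp τ (divPt M v τ) / (2 * π * I) ^ 2)

/-- `v ↦ v γ` -/
def rowMul (v : Fin 2 → ℤ) (γ : SL(2, ℤ)) : Fin 2 → ℤ :=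
  Matrix.vecMul v (γ : Matrix (Fin 2) (Fin 2) ℤ)

lemma rowMul_zero (v : Fin 2 → ℤ) (γ : SL(2, ℤ)) :
    rowMul v γ 0 = v 0 * γ 0 0 + v 1 * γ 1 0 := by
  simp [rowMul, Matrix.vecMul, dotProduct, Fin.sum_univ_two]

lemma rowMul_one (v : Fin 2 → ℤ) (γ : SL(2, ℤ)) :
    rowMul v γ 1 = v 0 * γ 0 1 + v 1 * γ 1 1 := by
  simp [rowMul, Matrix.vecMul, dotProduct, Fin.sum_univ_two]

lemma rowMul_mul (v : Fin 2 → ℤ) (γ γ' : SL(2, ℤ)) :
    rowMul v (γ * γ') = rowMul (rowMul v γ) γ' := by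
  simp [rowMul, Matrix.vecMul_vecMul]

lemma rowMul_one' (v : Fin 2 → ℤ) : rowMul v 1 = v := by
  simp [rowMul]

lemma divPt_smul (M : ℕ) (v : Fin 2 → ℤ) (γ : SL(2, ℤ)) (τ : ℍ) :
    divPt M v (γ • τ) = divPt M (rowMul v γ) τ / denom γ τ := by
  have hd : denom γ τ ≠ 0 := denom_ne_zero _ _
  rw [divPt, divPt, coe_smul_eq, ← denom_eq, rowMul_zero, rowMul_one]
  have key : (v 0 : ℂ) * (((γ 0 0 : ℂ) * τ + γ 0 1) / denom γ τ) + v 1 =
      (((v 0 * γ 0 0 + v 1 * γ 1 0 : ℤ) : ℂ) * τ + ((v 0 * γ 0 1 + v 1 * γ 1 1 : ℤ) : ℂ)) /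
        denom γ τ := by
    rw [eq_div_iff hd, add_mul, mul_assoc, div_mul_cancel₀ _ hd, denom_eq]
    push_cast
    ring
  rw [key, div_right_comm]

/-- **transformation of the Fricke functions** -/
theorem fricke_smul (M : ℕ) (v : Fin 2 → ℤ) (γ : SL(2, ℤ)) (τ : ℍ) :
    fricke M v (γ • τ) = fricke M (rowMul v γ) τ := by
  have hd : denom γ τ ≠ 0 := denom_ne_zero _ _
  have hΔ : Δ τ ≠ 0 := discriminant_ne_zero τ
  rw [fricke, fricke, divPt_smul, wp_smul, discriminant_smul, E₄_smul, E₆_smul]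
  have e4 : denom γ τ ^ (4 : ℤ) = denom γ τ ^ 4 := by norm_cast
  have e6 : denom γ τ ^ (6 : ℤ) = denom γ τ ^ 6 := by norm_cast
  have e12 : denom γ τ ^ (12 : ℤ) = denom γ τ ^ 12 := by norm_cast
  rw [e4, e6, e12]
  field_simp

lemma divPt_neg (M : ℕ) (v : Fin 2 → ℤ) (τ : ℍ) : divPt M (-v) τ = -divPt M v τ := by
  simp only [divPt, Pi.neg_apply, Int.cast_neg]
  ring

lemma fricke_neg (M : ℕ) (v : Fin 2 → ℤ) : fricke M (-v) = fricke M v := by
  funext τ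
  rw [fricke, fricke, divPt_neg, wp_neg]

lemma divPt_add_mul (M : ℕ) [NeZero M] (v u : Fin 2 → ℤ) (τ : ℍ) :
    divPt M (v + (M : ℤ) • u) τ = divPt M v τ + ((u 0 : ℂ) * τ + u 1) := by
  have hM : (M : ℂ) ≠ 0 := Nat.cast_ne_zero.2 (NeZero.ne M)
  simp only [divPt, Pi.add_apply, Pi.smul_apply, smul_eq_mul, Int.cast_add, Int.cast_mul,
    Int.cast_natCast]
  field_simp
  ring

lemma fricke_add_mul (M : ℕ) [NeZero M] (v u : Fin 2 → ℤ) :
    fricke M (v + (M : ℤ) • u) = fricke M v := by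
  funext τ
  rw [fricke, fricke, divPt_add_mul, wp_add_int_mul]

/-- `f_v` only depends on `v` modulo `M` -/
lemma fricke_congr (M : ℕ) [NeZero M] {v v' : Fin 2 → ℤ}
    (h : ∀ i, (M : ℤ) ∣ v' i - v i) : fricke M v' = fricke M v := by
  choose u hu using h
  have e : v' = v + (M : ℤ) • u := by
    funext i
    simp only [Pi.add_apply, Pi.smul_apply, smul_eq_mul]
    linarith [hu i]
  rw [e, fricke_add_mul]

/-- the reduced representative of `v` modulo `M` -/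
def red (M : ℕ) (v : Fin 2 → ℤ) : Fin 2 → ℤ := fun i => v i % (M : ℤ)

lemma fricke_red (M : ℕ) [NeZero M] (v : Fin 2 → ℤ) : fricke M (red M v) = fricke M v :=
  fricke_congr M fun i => by
    simp only [red]
    exact ⟨-(v i / (M : ℤ)), by linarith [Int.emod_add_mul_ediv (v i) (M : ℤ)]⟩

end Fermat.Agent.S48lib.X1.Wp
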