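/-
S48lib / X1 / Wp / FrickeQ (helper7).
Analytic control of the `q`-product form along `w = e((aτ + b)/M)`, `0 ≤ a < M`: geometric bounds,
holomorphy in `τ`, behaviour at `i∞`.
-/
import Fermat.Agent.S48lib.X1.Wp.Fricke

set_option autoImplicit false

noncomputable section

open UpperHalfPlane hiding I
open Complex Filter Topology MatrixGroups ModularForm EisensteinSeries
open scoped Real Manifold

namespace Fermat.Agent.S48lib.X1.Wp

lemma norm_phi_le' {u : ℂ} {r : ℝ} (hu : ‖u‖ ≤ r) (hr : r < 1) :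
    ‖phi u‖ ≤ ‖u‖ / (1 - r) ^ 2 := by
  have h1 : 1 - r ≤ ‖1 - u‖ := by
    have := norm_sub_norm_le (1 : ℂ) u
    rw [norm_one] at this
    linarith
  have h2 : 0 < 1 - r := by linarith
  rw [phi, norm_div, norm_pow]
  exact div_le_div_of_nonneg_left (norm_nonneg u) (pow_pos h2 2) (pow_le_pow_left₀ h2.le h1 2)

lemma differentiableAt_phi {u : ℂ} (hu : u ≠ 1) : DifferentiableAt ℂ phi u := by
  unfold phi
  exact differentiableAt_id.div (((differentiableAt_const _).sub differentiableAt_id).pow 2)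
    (pow_ne_zero 2 (sub_ne_zero.2 (Ne.symm hu)))

lemma ne_one_of_norm_lt {u : ℂ} (hu : ‖u‖ < 1) : u ≠ 1 := by
  rintro rfl
  simp at hu

/-- the geometric bound of the terms of the `q`-product -/
lemma norm_pwTerm_le {w q : ℂ} {r : ℝ} (hr : r < 1) (hq : ‖q‖ ≤ r) (hw : ‖w‖ ≤ 1)
    (hw' : ‖w⁻¹ * q‖ ≤ r) (k : ℕ) : ‖pwTerm w q k‖ ≤ 4 * r ^ (k + 1) / (1 - r) ^ 2 := by
  have h0 : 0 ≤ r := (norm_nonneg q).trans hq
  have hrk : r ^ (k + 1) ≤ r := pow_le_of_le_one h0 hr.le (Nat.succ_ne_zero k)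
  have b1 : ‖w * q ^ (k + 1)‖ ≤ r ^ (k + 1) := by
    rw [norm_mul, norm_pow]
    calc ‖w‖ * ‖q‖ ^ (k + 1) ≤ 1 * r ^ (k + 1) :=
          mul_le_mul hw (pow_le_pow_left₀ (norm_nonneg q) hq _) (by positivity) zero_le_one
      _ = r ^ (k + 1) := one_mul _
  have b2 : ‖w⁻¹ * q ^ (k + 1)‖ ≤ r ^ (k + 1) := by
    rw [pow_succ', ← mul_assoc, norm_mul, norm_pow, pow_succ']
    exact mul_le_mul hw' (pow_le_pow_left₀ (norm_nonneg q) hq _) (by positivity) h0
  have b3 : ‖q ^ (k + 1)‖ ≤ r ^ (k + 1) := by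
    rw [norm_pow]
    exact pow_le_pow_left₀ (norm_nonneg q) hq _
  have h1r : 0 < (1 - r) ^ 2 := pow_pos (by linarith) 2
  have hp : ∀ u : ℂ, ‖u‖ ≤ r ^ (k + 1) → ‖phi u‖ ≤ r ^ (k + 1) / (1 - r) ^ 2 := fun u hu =>
    (norm_phi_le' (hu.trans hrk) hr).trans (div_le_div_of_nonneg_right hu h1r.le)
  have t1 := hp _ b1
  have t2 := hp _ b2
  have t3 := hp _ b3
  have t4 : ‖(2 : ℂ) * phi (q ^ (k + 1))‖ = 2 * ‖phi (q ^ (k + 1))‖ := by
    rw [norm_mul]; simp
  calc ‖pwTerm w q k‖ ≤ ‖phi (w * q ^ (k + 1))‖ + ‖phi (w⁻¹ * q ^ (k + 1))‖ +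
        ‖(2 : ℂ) * phi (q ^ (k + 1))‖ := by
        unfold pwTerm
        exact (norm_sub_le _ _).trans (add_le_add_left (norm_add_le _ _) _)
    _ ≤ 4 * r ^ (k + 1) / (1 - r) ^ 2 := by
        rw [t4]
        have e : 4 * r ^ (k + 1) / (1 - r) ^ 2 = r ^ (k + 1) / (1 - r) ^ 2 +
            r ^ (k + 1) / (1 - r) ^ 2 + 2 * (r ^ (k + 1) / (1 - r) ^ 2) := by ring
        rw [e]
        linarith

lemma hasSum_geom_bound {r : ℝ} (h0 : 0 ≤ r) (hr : r < 1) :
    HasSum (fun k : ℕ => 4 * r ^ (k + 1) / (1 - r) ^ 2) (4 * r / (1 - r) ^ 3) := by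
  have h := (hasSum_geometric_of_lt_one h0 hr).mul_left (4 * r / (1 - r) ^ 2)
  have h1 : (1 - r) ≠ 0 := by linarith
  have e : 4 * r / (1 - r) ^ 2 * (1 - r)⁻¹ = 4 * r / (1 - r) ^ 3 := by
    field_simp
  rw [e] at h
  refine h.congr_fun fun k => ?_
  ring

lemma summable_pwTerm_of_le {w q : ℂ} {r : ℝ} (hr : r < 1) (hq : ‖q‖ ≤ r) (hw : ‖w‖ ≤ 1)
    (hw' : ‖w⁻¹ * q‖ ≤ r) : Summable (pwTerm w q) :=
  Summable.of_norm_bounded (hasSum_geom_bound ((norm_nonneg q).trans hq) hr).summable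
    (norm_pwTerm_le hr hq hw hw')

lemma norm_tsum_pwTerm_le {w q : ℂ} {r : ℝ} (hr : r < 1) (hq : ‖q‖ ≤ r) (hw : ‖w‖ ≤ 1)
    (hw' : ‖w⁻¹ * q‖ ≤ r) : ‖∑' k, pwTerm w q k‖ ≤ 4 * r / (1 - r) ^ 3 :=
  tsum_of_norm_bounded (hasSum_geom_bound ((norm_nonneg q).trans hq) hr)
    (norm_pwTerm_le hr hq hw hw')

/-- the `w`-coordinate `e((a t + b)/M)` of the division point -/
def wOf (M : ℕ) (a b : ℤ) (t : ℂ) : ℂ := ee (((a : ℂ) * t + b) / M)

lemma wOf_ne_zero (M : ℕ) (a b : ℤ) (t : ℂ) : wOf M a b t ≠ 0 := ee_ne_zero _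

lemma norm_wOf (M : ℕ) (a b : ℤ) (t : ℂ) :
    ‖wOf M a b t‖ = Real.exp (-2 * π * ((a : ℝ) * t.im / M)) := by
  rw [wOf, norm_ee]
  congr 2
  simp [Complex.div_natCast_im]

/-- the radius `exp(-2πε/M)` -/
def rad (M : ℕ) (ε : ℝ) : ℝ := Real.exp (-2 * π * (ε / M))

lemma rad_pos (M : ℕ) (ε : ℝ) : 0 < rad M ε := Real.exp_pos _

lemma rad_lt_one (M : ℕ) [NeZero M] {ε : ℝ} (hε : 0 < ε) : rad M ε < 1 := by
  have hM : (0 : ℝ) < M := Nat.cast_pos.2 (NeZero.pos M)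
  rw [rad, Real.exp_lt_one_iff]
  have : 0 < π * (ε / M) := mul_pos Real.pi_pos (div_pos hε hM)
  linarith

section Bounds

variable {M : ℕ} [NeZero M] {a b : ℤ} {ε : ℝ} {t : ℂ}

lemma norm_ee_le_rad (hε : 0 < ε) (ht : ε ≤ t.im) : ‖ee t‖ ≤ rad M ε := by
  have hM : (1 : ℝ) ≤ M := by exact_mod_cast NeZero.one_le
  rw [norm_ee, rad, Real.exp_le_exp]
  have h1 : ε / M ≤ ε := div_le_self hε.le hM
  have : π * (ε / M) ≤ π * t.im := mul_le_mul_of_nonneg_left (h1.trans ht) Real.pi_pos.le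
  linarith

lemma norm_wOf_le_one (ha : 0 ≤ a) (ht : 0 ≤ t.im) : ‖wOf M a b t‖ ≤ 1 := by
  rw [norm_wOf, Real.exp_le_one_iff]
  have h1 : (0 : ℝ) ≤ (a : ℝ) * t.im / M :=
    div_nonneg (mul_nonneg (by exact_mod_cast ha) ht) (Nat.cast_nonneg M)
  have := mul_nonneg Real.pi_pos.le h1
  linarith

lemma norm_wOf_le_rad (ha : 1 ≤ a) (hε : 0 < ε) (ht : ε ≤ t.im) : ‖wOf M a b t‖ ≤ rad M ε := by
  have hM : (0 : ℝ) < M := Nat.cast_pos.2 (NeZero.pos M)
  rw [norm_wOf, rad, Real.exp_le_exp]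
  have ha' : (1 : ℝ) ≤ a := by exact_mod_cast ha
  have h1 : ε / M ≤ (a : ℝ) * t.im / M := by
    apply div_le_div_of_nonneg_right _ hM.le
    nlinarith
  have := mul_le_mul_of_nonneg_left h1 Real.pi_pos.le
  linarith

lemma norm_wOf_inv_mul_le_rad (ha : a < M) (hε : 0 < ε) (ht : ε ≤ t.im) :
    ‖(wOf M a b t)⁻¹ * ee t‖ ≤ rad M ε := by
  have hM : (0 : ℝ) < M := Nat.cast_pos.2 (NeZero.pos M)
  rw [norm_mul, norm_inv, norm_wOf, norm_ee, ← Real.exp_neg, ← Real.exp_add, rad, Real.exp_le_exp]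
  have ha' : (a : ℝ) + 1 ≤ M := by exact_mod_cast Int.add_one_le_iff.2 ha
  have h1 : ε / M ≤ t.im - (a : ℝ) * t.im / M := by
    rw [div_le_iff₀ hM, sub_mul, div_mul_cancel₀ _ hM.ne']
    nlinarith
  have := mul_le_mul_of_nonneg_left h1 Real.pi_pos.le
  nlinarith

end Bounds

lemma differentiable_ee : Differentiable ℂ ee := by
  unfold ee
  exact (differentiable_id.const_mul _).cexp

lemma differentiable_wOf (M : ℕ) (a b : ℤ) : Differentiable ℂ (wOf M a b) := by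
  unfold wOf
  exact differentiable_ee.comp
    (((differentiable_id.const_mul _).add (differentiable_const _)).div_const _)

/-- the `q`-product along the division point, as a function of `t ∈ ℂ` -/
def pwOf (M : ℕ) (a b : ℤ) (t : ℂ) : ℂ := pw (wOf M a b t) (ee t)

section Hol

variable {M : ℕ} [NeZero M] {a b : ℤ}

lemma wOf_ne_one (ha : 0 ≤ a) (hab : ¬ (a = 0 ∧ (M : ℤ) ∣ b)) {t : ℂ} (ht : 0 < t.im) :
    wOf M a b t ≠ 1 := by
  rcases ha.eq_or_lt with h0 | h0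
  · intro h
    rw [wOf, ee_eq_one_iff] at h
    obtain ⟨n, hn⟩ := h
    apply hab ⟨h0.symm, ?_⟩
    have hM : (M : ℂ) ≠ 0 := Nat.cast_ne_zero.2 (NeZero.ne M)
    rw [← h0, Int.cast_zero, zero_mul, zero_add, eq_div_iff hM] at hn
    exact ⟨n, by
      have : ((n * (M : ℤ) : ℤ) : ℂ) = ((b : ℤ) : ℂ) := by push_cast; exact hn
      have := Int.cast_injective this
      linarith⟩
  · exact ne_one_of_norm_lt
      ((norm_wOf_le_rad (Int.add_one_le_iff.2 h0) ht le_rfl).trans_lt (rad_lt_one M ht))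

lemma differentiableOn_tsum_pwTerm (ha : 0 ≤ a) (ha' : a < M) {ε : ℝ} (hε : 0 < ε) :
    DifferentiableOn ℂ (fun t => ∑' k, pwTerm (wOf M a b t) (ee t) k) {t | ε < t.im} := by
  have hr := rad_lt_one M hε
  refine differentiableOn_tsum_of_summable_norm
    (u := fun k => 4 * rad M ε ^ (k + 1) / (1 - rad M ε) ^ 2)
    (hasSum_geom_bound (rad_pos M ε).le hr).summable ?_
    (isOpen_lt continuous_const Complex.continuous_im) ?_
  · intro k t ht
    have ht' : ε ≤ t.im := le_of_lt ht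
    have hq := norm_ee_le_rad (M := M) hε ht'
    have hw := norm_wOf_le_one (M := M) (b := b) ha (hε.le.trans ht')
    have hw' := norm_wOf_inv_mul_le_rad (b := b) ha' hε ht'
    have h0 : 0 ≤ rad M ε := (rad_pos M ε).le
    have hrk : rad M ε ^ (k + 1) ≤ rad M ε := pow_le_of_le_one h0 hr.le (Nat.succ_ne_zero k)
    have b1 : ‖wOf M a b t * ee t ^ (k + 1)‖ < 1 := by
      rw [norm_mul, norm_pow]
      calc ‖wOf M a b t‖ * ‖ee t‖ ^ (k + 1) ≤ 1 * rad M ε ^ (k + 1) :=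
            mul_le_mul hw (pow_le_pow_left₀ (norm_nonneg _) hq _) (by positivity) zero_le_one
        _ < 1 := by rw [one_mul]; exact hrk.trans_lt hr
    have b2 : ‖(wOf M a b t)⁻¹ * ee t ^ (k + 1)‖ < 1 := by
      rw [pow_succ', ← mul_assoc, norm_mul, norm_pow]
      calc ‖(wOf M a b t)⁻¹ * ee t‖ * ‖ee t‖ ^ k ≤ rad M ε * rad M ε ^ k :=
            mul_le_mul hw' (pow_le_pow_left₀ (norm_nonneg _) hq _) (by positivity) h0
        _ < 1 := by rw [← pow_succ']; exact hrk.trans_lt hr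
    have b3 : ‖ee t ^ (k + 1)‖ < 1 := by
      rw [norm_pow]
      exact ((pow_le_pow_left₀ (norm_nonneg _) hq _).trans hrk).trans_lt hr
    have dq : DifferentiableAt ℂ (fun t => ee t ^ (k + 1)) t := (differentiable_ee t).pow _
    have dw : DifferentiableAt ℂ (wOf M a b) t := differentiable_wOf M a b t
    have d1 : DifferentiableAt ℂ (fun t => phi (wOf M a b t * ee t ^ (k + 1))) t :=
      DifferentiableAt.fun_comp' (f := fun t => wOf M a b t * ee t ^ (k + 1)) (g := phi) t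
        (differentiableAt_phi (ne_one_of_norm_lt b1)) (dw.mul dq)
    have d2 : DifferentiableAt ℂ (fun t => phi ((wOf M a b t)⁻¹ * ee t ^ (k + 1))) t :=
      DifferentiableAt.fun_comp' (f := fun t => (wOf M a b t)⁻¹ * ee t ^ (k + 1)) (g := phi) t
        (differentiableAt_phi (ne_one_of_norm_lt b2)) ((dw.inv (wOf_ne_zero M a b t)).mul dq)
    have d3 : DifferentiableAt ℂ (fun t => phi (ee t ^ (k + 1))) t :=
      DifferentiableAt.fun_comp' (f := fun t => ee t ^ (k + 1)) (g := phi) t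
        (differentiableAt_phi (ne_one_of_norm_lt b3)) dq
    unfold pwTerm
    exact ((d1.add d2).sub (d3.const_mul 2)).differentiableWithinAt
  · intro k t ht
    have ht' : ε ≤ t.im := le_of_lt ht
    exact norm_pwTerm_le hr (norm_ee_le_rad hε ht') (norm_wOf_le_one ha (hε.le.trans ht'))
      (norm_wOf_inv_mul_le_rad ha' hε ht') k

/-- holomorphy of the `q`-product along a division point -/
theorem differentiableOn_pwOf (ha : 0 ≤ a) (ha' : a < M) (hab : ¬ (a = 0 ∧ (M : ℤ) ∣ b)) :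
    DifferentiableOn ℂ (pwOf M a b) {t | 0 < t.im} := by
  intro t ht
  have hε : 0 < t.im / 2 := half_pos ht
  have hU : {s : ℂ | t.im / 2 < s.im} ∈ 𝓝 t :=
    (isOpen_lt continuous_const Complex.continuous_im).mem_nhds
      (show t.im / 2 < t.im from half_lt_self ht)
  have h1 := ((differentiableOn_tsum_pwTerm (b := b) ha ha' hε).differentiableAt hU)
  have h2 : DifferentiableAt ℂ (fun t => phi (wOf M a b t)) t :=
    DifferentiableAt.fun_comp' (f := wOf M a b) (g := phi) t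
      (differentiableAt_phi (wOf_ne_one ha hab ht)) (differentiable_wOf M a b t)
  unfold pwOf pw
  exact (((differentiableAt_const _).add h2).add h1).differentiableWithinAt

end Hol

/-! ### Behaviour at `i∞` -/

/-- the value of `pwOf M a b` at `i∞` (for `0 ≤ a < M`) -/
def pwLim (M : ℕ) (a b : ℤ) : ℂ := 1 / 12 + if a = 0 then phi (ee ((b : ℂ) / M)) else 0

lemma tendsto_rad (M : ℕ) [NeZero M] : Tendsto (fun y : ℝ => rad M y) atTop (𝓝 0) := by
  have hM : (0 : ℝ) < M := Nat.cast_pos.2 (NeZero.pos M)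
  have h1 : Tendsto (fun y : ℝ => 2 * π / M * y) atTop atTop :=
    tendsto_id.const_mul_atTop (div_pos (mul_pos two_pos Real.pi_pos) hM)
  refine (Real.tendsto_exp_neg_atTop_nhds_zero.comp h1).congr fun y => ?_
  simp only [Function.comp_apply, rad]
  congr 1
  field_simp

section Lim

variable {M : ℕ} [NeZero M] {a b : ℤ}

lemma norm_pwOf_sub_pwLim_le (ha : 0 ≤ a) (ha' : a < M) {t : ℂ} (ht : 0 < t.im)
    (hr : rad M t.im ≤ 1 / 2) : ‖pwOf M a b t - pwLim M a b‖ ≤ 36 * rad M t.im := by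
  have hr0 : 0 < rad M t.im := rad_pos M t.im
  have hr1 : rad M t.im < 1 := rad_lt_one M ht
  have hts := norm_tsum_pwTerm_le hr1 (norm_ee_le_rad (M := M) ht le_rfl)
    (norm_wOf_le_one (M := M) (b := b) ha ht.le) (norm_wOf_inv_mul_le_rad (b := b) ha' ht le_rfl)
  have h2 : (1 / 2 : ℝ) ^ 2 ≤ (1 - rad M t.im) ^ 2 :=
    pow_le_pow_left₀ (by norm_num) (by linarith) 2
  have h3 : (1 / 2 : ℝ) ^ 3 ≤ (1 - rad M t.im) ^ 3 :=
    pow_le_pow_left₀ (by norm_num) (by linarith) 3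
  have h32 : 4 * rad M t.im / (1 - rad M t.im) ^ 3 ≤ 32 * rad M t.im := by
    rw [div_le_iff₀ (pow_pos (by linarith) 3)]
    nlinarith
  rcases ha.eq_or_lt with h0 | h0
  · have e : pwOf M a b t - pwLim M a b = ∑' k, pwTerm (wOf M a b t) (ee t) k := by
      rw [pwOf, pw, pwLim, if_pos h0.symm, wOf, ← h0]
      simp only [Int.cast_zero, zero_mul, zero_add]
      ring
    rw [e]
    linarith
  · have hw : ‖wOf M a b t‖ ≤ rad M t.im :=
      norm_wOf_le_rad (Int.add_one_le_iff.2 h0) ht le_rfl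
    have hp := norm_phi_le hw hr1
    have h4 : rad M t.im / (1 - rad M t.im) ^ 2 ≤ 4 * rad M t.im := by
      rw [div_le_iff₀ (pow_pos (by linarith) 2)]
      nlinarith
    have e : pwOf M a b t - pwLim M a b =
        phi (wOf M a b t) + ∑' k, pwTerm (wOf M a b t) (ee t) k := by
      rw [pwOf, pw, pwLim, if_neg h0.ne']
      ring
    rw [e]
    calc ‖phi (wOf M a b t) + ∑' k, pwTerm (wOf M a b t) (ee t) k‖
        ≤ ‖phi (wOf M a b t)‖ + ‖∑' k, pwTerm (wOf M a b t) (ee t) k‖ := norm_add_le _ _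
      _ ≤ 36 * rad M t.im := by linarith

/-- the limit of the `q`-product at `i∞` -/
theorem tendsto_pwOf (ha : 0 ≤ a) (ha' : a < M) :
    Tendsto (fun τ : ℍ => pwOf M a b τ) atImInfty (𝓝 (pwLim M a b)) := by
  rw [← tendsto_sub_nhds_zero_iff]
  have hz : IsZeroAtImInfty (fun τ : ℍ => pwOf M a b τ - pwLim M a b) := by
    rw [isZeroAtImInfty_iff]
    intro δ hδ
    have hc : (0 : ℝ) < min (1 / 2) (δ / 36) := lt_min (by norm_num) (by positivity)
    obtain ⟨A, hA⟩ := ((tendsto_rad M).eventually (gt_mem_nhds hc)).exists_forall_of_atTop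
    refine ⟨max A 1, fun z hz => ?_⟩
    have hzA : A ≤ z.im := (le_max_left A 1).trans hz
    have h1 := hA z.im hzA
    have h2 : rad M z.im ≤ 1 / 2 := (h1.le).trans (min_le_left _ _)
    have h3 : rad M z.im ≤ δ / 36 := (h1.le).trans (min_le_right _ _)
    have h4 := norm_pwOf_sub_pwLim_le (b := b) ha ha' (t := (z : ℂ)) z.im_pos h2
    have h5 : ((z : ℂ)).im = z.im := rfl
    rw [h5] at h4
    linarith
  exact hz

lemma isBoundedAtImInfty_pwOf (ha : 0 ≤ a) (ha' : a < M) :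
    IsBoundedAtImInfty (fun τ : ℍ => pwOf M a b τ) :=
  (tendsto_pwOf ha ha').isBigO_one ℝ

end Lim

end Fermat.Agent.S48lib.X1.Wp
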