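/-
S48lib / X1 / Wp / FrickeWH0 (helper7).
The Fricke functions `f_v` (`v ≢ 0 mod M`) are weakly holomorphic modular functions of level `Γ(M)`:
`q`-product form, holomorphy, behaviour at the cusps.
-/
import Fermat.Agent.S48lib.X1.Wp.FrickeQ

set_option autoImplicit false

noncomputable section

open UpperHalfPlane hiding I
open Complex Filter Topology MatrixGroups ModularForm EisensteinSeries CongruenceSubgroup
open scoped Real Manifold

namespace Fermat.Agent.S48lib.X1.Wp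

open Fermat.Agent.ProgramR Fermat.Agent.ProgramR.LevelOne

local notation "Δ" => ModularForm.discriminant

/-- `v ≢ 0 mod M` -/
def NZ (M : ℕ) (v : Fin 2 → ℤ) : Prop := ¬ ((M : ℤ) ∣ v 0 ∧ (M : ℤ) ∣ v 1)

lemma dvd_emod_iff (M : ℕ) (x : ℤ) : (M : ℤ) ∣ x % (M : ℤ) ↔ (M : ℤ) ∣ x := by
  rw [Int.dvd_iff_emod_eq_zero, Int.dvd_iff_emod_eq_zero, Int.emod_emod_of_dvd _ (dvd_refl _)]

lemma nz_red {M : ℕ} {v : Fin 2 → ℤ} : NZ M (red M v) ↔ NZ M v := by
  simp only [NZ, red, dvd_emod_iff]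

lemma nz_rowMul_of {M : ℕ} {v : Fin 2 → ℤ} (γ : SL(2, ℤ)) (h : NZ M (rowMul v γ)) : NZ M v := by
  intro hv
  apply h
  rw [rowMul_zero, rowMul_one]
  exact ⟨dvd_add (hv.1.mul_right _) (hv.2.mul_right _),
    dvd_add (hv.1.mul_right _) (hv.2.mul_right _)⟩

lemma nz_rowMul {M : ℕ} {v : Fin 2 → ℤ} (γ : SL(2, ℤ)) : NZ M (rowMul v γ) ↔ NZ M v := by
  refine ⟨nz_rowMul_of γ, fun h => nz_rowMul_of γ⁻¹ ?_⟩
  rwa [← rowMul_mul, mul_inv_cancel, rowMul_one']

lemma divPt_notMem_lattice {M : ℕ} [NeZero M] {v : Fin 2 → ℤ} (hv : NZ M v) (τ : ℍ) :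
    divPt M v τ ∉ (pp τ).lattice := by
  intro h
  obtain ⟨m, n, hmn⟩ := mem_lattice_pp.1 h
  have hM : (M : ℂ) ≠ 0 := Nat.cast_ne_zero.2 (NeZero.ne M)
  rw [divPt, div_eq_iff hM] at hmn
  have h1 : ((v 0 - m * M : ℤ) : ℂ) * τ = ((n * M - v 1 : ℤ) : ℂ) := by
    push_cast
    linear_combination hmn
  have h2 := congrArg Complex.im h1
  rw [Complex.intCast_im, Complex.mul_im, Complex.intCast_re, Complex.intCast_im, zero_mul,
    add_zero, UpperHalfPlane.coe_im] at h2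
  have h3 : ((v 0 - m * M : ℤ) : ℝ) = 0 := by
    rcases mul_eq_zero.1 h2 with h | h
    · exact h
    · exact absurd h τ.im_pos.ne'
  have h4 : v 0 - m * M = 0 := by exact_mod_cast h3
  rw [h4, Int.cast_zero, zero_mul] at h1
  have h5 : n * M - v 1 = 0 := by exact_mod_cast h1.symm
  exact hv ⟨⟨m, by linarith⟩, ⟨n, by linarith⟩⟩

/-- **the `q`-product form of the Fricke functions** -/
theorem fricke_eq_pwOf {M : ℕ} [NeZero M] {v : Fin 2 → ℤ} (hv : NZ M v) (τ : ℍ) :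
    fricke M v τ = E₄ τ * E₆ τ / Δ τ * pwOf M (v 0 % M) (v 1 % M) τ := by
  rw [← fricke_red, fricke, wp_eq (divPt_notMem_lattice (nz_red.2 hv) τ),
    mul_div_cancel_left₀ _ two_pi_I_sq_ne_zero]
  rfl

section

variable {M : ℕ} [NeZero M] {v : Fin 2 → ℤ}

lemma emod_nonneg' (x : ℤ) : 0 ≤ x % (M : ℤ) :=
  Int.emod_nonneg _ (Int.natCast_ne_zero.2 (NeZero.ne M))

lemma emod_lt' (x : ℤ) : x % (M : ℤ) < M :=
  Int.emod_lt_of_pos _ (Int.natCast_pos.2 (NeZero.pos M))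

lemma not_zero_of_nz (hv : NZ M v) : ¬ (v 0 % (M : ℤ) = 0 ∧ (M : ℤ) ∣ v 1 % (M : ℤ)) := by
  rw [dvd_emod_iff, ← Int.dvd_iff_emod_eq_zero]
  exact hv

lemma mdifferentiable_pwOf (hv : NZ M v) :
    MDiff (fun τ : ℍ => pwOf M (v 0 % M) (v 1 % M) τ) := by
  rw [UpperHalfPlane.mdifferentiable_iff]
  refine (differentiableOn_pwOf (emod_nonneg' _) (emod_lt' _) (not_zero_of_nz hv)).congr ?_
  intro t ht
  simp only [Function.comp_apply]
  rw [ofComplex_apply_of_im_pos ht]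

/-- the Fricke functions are holomorphic -/
theorem mdifferentiable_fricke (hv : NZ M v) : MDiff (fricke M v) := by
  have h1 : MDiff (fun z : ℍ => E₄ z * E₆ z / CuspForm.discriminant z) :=
    (E₄.holo'.mul E₆.holo').div CuspForm.discriminant.holo' discriminant_ne_zero
  have h2 := h1.mul (mdifferentiable_pwOf hv)
  have e : fricke M v = (fun z : ℍ => E₄ z * E₆ z / CuspForm.discriminant z) *
      (fun τ : ℍ => pwOf M (v 0 % M) (v 1 % M) τ) := by
    funext τ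
    rw [fricke_eq_pwOf hv]
    rfl
  rw [e]
  exact h2

lemma fricke_mul_discriminant (hv : NZ M v) (τ : ℍ) :
    fricke M v τ * Δ τ = E₄ τ * E₆ τ * pwOf M (v 0 % M) (v 1 % M) τ := by
  rw [fricke_eq_pwOf hv]
  field_simp [discriminant_ne_zero τ]

/-- the limit of `f_v Δ` at `i∞` -/
theorem tendsto_fricke_mul (hv : NZ M v) :
    Tendsto (fun τ : ℍ => fricke M v τ * Δ τ) atImInfty
      (𝓝 (pwLim M (v 0 % M) (v 1 % M))) := by
  have h := (tendsto_E₄_atImInfty.mul tendsto_E₆_atImInfty).mul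
    (tendsto_pwOf (b := v 1 % M) (emod_nonneg' (M := M) (v 0)) (emod_lt' (v 0)))
  rw [one_mul, one_mul] at h
  refine h.congr fun τ => ?_
  rw [fricke_mul_discriminant hv]

lemma isBoundedAtImInfty_fricke_mul (hv : NZ M v) :
    IsBoundedAtImInfty (fun τ : ℍ => fricke M v τ * Δ τ) :=
  (tendsto_fricke_mul hv).isBigO_one ℝ

lemma rowMul_sub_dvd {γ : SL(2, ℤ)} (hγ : γ ∈ CongruenceSubgroup.Gamma M) (i : Fin 2) :
    (M : ℤ) ∣ rowMul v γ i - v i := by
  rw [Gamma_mem] at hγ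
  obtain ⟨h00, h01, h10, h11⟩ := hγ
  have d00 : (M : ℤ) ∣ γ 0 0 - 1 := by
    rw [← ZMod.intCast_zmod_eq_zero_iff_dvd]; push_cast; rw [h00]; ring
  have d01 : (M : ℤ) ∣ γ 0 1 := by
    rw [← ZMod.intCast_zmod_eq_zero_iff_dvd]; exact h01
  have d10 : (M : ℤ) ∣ γ 1 0 := by
    rw [← ZMod.intCast_zmod_eq_zero_iff_dvd]; exact h10
  have d11 : (M : ℤ) ∣ γ 1 1 - 1 := by
    rw [← ZMod.intCast_zmod_eq_zero_iff_dvd]; push_cast; rw [h11]; ring
  fin_cases i
  · show (M : ℤ) ∣ rowMul v γ 0 - v 0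
    rw [rowMul_zero]
    have e : v 0 * γ 0 0 + v 1 * γ 1 0 - v 0 = v 0 * (γ 0 0 - 1) + v 1 * γ 1 0 := by ring
    rw [e]
    exact dvd_add (d00.mul_left _) (d10.mul_left _)
  · show (M : ℤ) ∣ rowMul v γ 1 - v 1
    rw [rowMul_one]
    have e : v 0 * γ 0 1 + v 1 * γ 1 1 - v 1 = v 0 * γ 0 1 + v 1 * (γ 1 1 - 1) := by ring
    rw [e]
    exact dvd_add (d01.mul_left _) (d11.mul_left _)

/-- **the Fricke functions are weakly holomorphic modular functions for `Γ(M)`** -/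
theorem isWH0_fricke (hv : NZ M v) : IsWH0 (CongruenceSubgroup.Gamma M) (fricke M v) where
  mdiff := mdifferentiable_fricke hv
  smul_eq := by
    intro γ hγ z
    rw [fricke_smul, fricke_congr M (rowMul_sub_dvd (v := v) hγ)]
  exists_bdd := by
    refine ⟨1, fun g => ?_⟩
    have h := isBoundedAtImInfty_fricke_mul ((nz_rowMul g).2 hv)
    have e : (fun z : ℍ => fricke M v (g • z) * Δ z ^ 1) =
        fun τ : ℍ => fricke M (rowMul v g) τ * Δ τ := by
      funext z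
      rw [fricke_smul, pow_one]
    rw [e]
    exact h

end

end Fermat.Agent.S48lib.X1.Wp
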