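/-
S48lib / X1 / Wp / ChartGen (helper7).
For a subgroup `Γ ≤ SL(2,ℤ)` of finite index and ONE function `h ∈ WH0 Γ` whose translates over the
distinct cosets of `Γ` are distinct: the `ChartData` of `WH0 Γ`, and
`[SL(2,ℤ) : Γ] = rank_{ℂ[j]} WH0 Γ` (generic version of ProgramR `WH0.finrank_Gamma0`).
-/
import Fermat.Agent.ProgramR.Analytic.WH0Dedekind
import Fermat.Agent.ProgramR.Analytic.Dictionary
import Fermat.Agent.ProgramR.Analytic.Division

set_option autoImplicit false

noncomputable section

namespace Fermat.Agent.S48lib.X1.Wp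

open Fermat.Agent.ProgramR
open UpperHalfPlane Polynomial Module
open scoped Manifold MatrixGroups

attribute [local instance] FractionRing.liftAlgebra

variable (Γ : Subgroup SL(2, ℤ))

/-- `h` separates the cosets of `Γ` -/
def Separates (h : WH0 Γ) : Prop :=
  ∀ g g' : SL(2, ℤ), Hol.slComp g⁻¹ (WH0.toHol Γ h) = Hol.slComp g'⁻¹ (WH0.toHol Γ h) →
    g⁻¹ * g' ∈ Γ

variable {Γ}

/-- The chart data of `WH0 Γ` over `ℂ`, given a separating function. -/
def wh0Chart {h : WH0 Γ} (hsep : Separates Γ h) : ChartData ℂ (WH0 Γ) Γ where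
  ι := RingHom.id ℂ
  ev := (WH0.toHol Γ).toRingHom
  ev_inj := WH0.toHol_injective Γ
  ev_C := by
    intro a
    apply Hol.ext
    intro z
    change (algebraMap ℂ[X] (WH0 Γ) (C a)).1 z = a
    rw [WH0.algebraMap_poly_apply, Polynomial.eval_C]
  ev_X := by
    apply Hol.ext
    intro z
    change (algebraMap ℂ[X] (WH0 Γ) X).1 z = LevelOne.jInv z
    rw [WH0.algebraMap_poly_apply, Polynomial.eval_X]
  ev_inv := by
    intro s γ hγ
    apply Hol.ext
    intro z
    exact s.2.smul_eq γ hγ z
  sep := fun g g' hh => hsep g g' (hh h)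

lemma wh0Chart_ev {h : WH0 Γ} (hsep : Separates Γ h) (s : WH0 Γ) :
    (wh0Chart hsep).ev s = WH0.toHol Γ s := rfl

/-- **Degree**: `WH0 Γ` has rank `[SL(2,ℤ) : Γ]` over `ℂ[X]`, given a separating function. -/
theorem card_eq_finrank_of_separates [Fintype (SL(2, ℤ) ⧸ Γ)] {h : WH0 Γ}
    (hsep : Separates Γ h) :
    Fintype.card (SL(2, ℤ) ⧸ Γ) = finrank ℂ[X] (WH0 Γ) := by
  classical
  apply le_antisymm
  · set A := wh0Chart hsep
    have hint : IsIntegral ℂ[X] h := Algebra.IsIntegral.isIntegral h
    set m := minpoly ℂ[X] h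
    have hm : m.Monic := minpoly.monic hint
    have hdeg : m.natDegree ≤ finrank ℂ[X] (WH0 Γ) := by
      have h1 := minpoly.isIntegrallyClosed_eq_field_fractions RatC (WH0.FunField Γ) hint
      have h2 : (minpoly RatC (algebraMap (WH0 Γ) (WH0.FunField Γ) h)).natDegree ≤
          finrank RatC (WH0.FunField Γ) := minpoly.natDegree_le _
      rw [h1, hm.natDegree_map] at h2
      rw [WH0.finrank_eq_finrank_funField]
      exact h2
    set m' : Hol[X] := m.map A.φ
    have hm' : m'.Monic := hm.map _
    have hroot : ∀ x : SL(2, ℤ) ⧸ Γ, m'.IsRoot (A.σ x h) := by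
      intro x
      rw [Polynomial.IsRoot.def, Polynomial.eval_map]
      have h1 : A.φ = (A.σ x).comp (algebraMap ℂ[X] (WH0 Γ)) :=
        RingHom.ext (fun p => (A.σ_φ x p).symm)
      rw [h1, ← Polynomial.hom_eval₂, ← Polynomial.aeval_def, minpoly.aeval, map_zero]
    have hinj : Function.Injective (fun x : SL(2, ℤ) ⧸ Γ => A.σ x h) := by
      intro x y hxy
      induction x using QuotientGroup.induction_on with
      | H g =>
        induction y using QuotientGroup.induction_on with
        | H g' =>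
          rw [QuotientGroup.eq]
          exact hsep g g' hxy
    have hsub : (Finset.univ.image (fun x : SL(2, ℤ) ⧸ Γ => A.σ x h)).val ⊆ m'.roots := by
      intro f hf
      rw [Finset.mem_val, Finset.mem_image] at hf
      obtain ⟨x, -, rfl⟩ := hf
      exact (Polynomial.mem_roots hm'.ne_zero).2 (hroot x)
    have h3 := Polynomial.card_le_degree_of_subset_roots hsub
    rw [Finset.card_image_of_injective _ hinj, Finset.card_univ, hm.natDegree_map] at h3
    exact h3.trans hdeg
  · rw [WH0.finrank_eq_finrank_funField]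
    exact WH0.finrank_funField_le Γ

end Fermat.Agent.S48lib.X1.Wp
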