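/-
S48lib / X1 / Wp / Sep (helper7).
The group `±Γ₁(M)`, the Fricke function `f_{(0,1)} ∈ WH0 (±Γ₁(M))`, its stabiliser (from the constant
terms at all cusps), and the degree `[SL(2,ℤ) : ±Γ₁(M)] = rank_{ℂ[j]} WH0 (±Γ₁(M))`.
-/
import Fermat.Agent.S48lib.X1.Wp.FrickeWH0
import Fermat.Agent.S48lib.X1.Wp.ChartGen

set_option autoImplicit false

noncomputable section

open UpperHalfPlane hiding I
open Complex Filter Topology MatrixGroups ModularForm EisensteinSeries CongruenceSubgroup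
open scoped Real Manifold

namespace Fermat.Agent.S48lib.X1.Wp

open Fermat.Agent.ProgramR Fermat.Agent.ProgramR.LevelOne

local notation "Δ" => ModularForm.discriminant

/-- `±Γ₁(M)`: lower row `≡ ±(0, 1) mod M` -/
def pmGamma1 (M : ℕ) : Subgroup SL(2, ℤ) where
  carrier := {γ | ((γ 1 0 : ℤ) : ZMod M) = 0 ∧
    (((γ 1 1 : ℤ) : ZMod M) = 1 ∨ ((γ 1 1 : ℤ) : ZMod M) = -1)}
  one_mem' := by simp
  mul_mem' := by
    rintro a b ⟨ha0, ha1⟩ ⟨hb0, hb1⟩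
    have e0 : ((a * b : SL(2, ℤ)) 1 0 : ℤ) = a 1 0 * b 0 0 + a 1 1 * b 1 0 := by
      rw [Matrix.SpecialLinearGroup.coe_mul, Matrix.mul_apply, Fin.sum_univ_two]
    have e1 : ((a * b : SL(2, ℤ)) 1 1 : ℤ) = a 1 0 * b 0 1 + a 1 1 * b 1 1 := by
      rw [Matrix.SpecialLinearGroup.coe_mul, Matrix.mul_apply, Fin.sum_univ_two]
    refine ⟨?_, ?_⟩
    · rw [e0]; push_cast; rw [ha0, hb0]; ring
    · rw [e1]; push_cast; rw [ha0]
      rcases ha1 with ha1 | ha1 <;> rcases hb1 with hb1 | hb1 <;> rw [ha1, hb1]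
      · left; ring
      · right; ring
      · right; ring
      · left; ring
  inv_mem' := by
    rintro a ⟨ha0, ha1⟩
    have hdet : a 0 0 * a 1 1 - a 0 1 * a 1 0 = 1 := by
      have := a.det_coe; rwa [Matrix.det_fin_two] at this
    have hdet' : ((a 0 0 : ℤ) : ZMod M) * ((a 1 1 : ℤ) : ZMod M) = 1 := by
      have := congrArg (Int.cast : ℤ → ZMod M) hdet
      push_cast at this
      rw [ha0] at this
      linear_combination this
    have e0 : ((a⁻¹ : SL(2, ℤ)) 1 0 : ℤ) = - a 1 0 := by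
      rw [Matrix.SpecialLinearGroup.SL2_inv_expl]; rfl
    have e1 : ((a⁻¹ : SL(2, ℤ)) 1 1 : ℤ) = a 0 0 := by
      rw [Matrix.SpecialLinearGroup.SL2_inv_expl]; rfl
    refine ⟨?_, ?_⟩
    · rw [e0]; push_cast; rw [ha0]; ring
    · rw [e1]
      rcases ha1 with ha1 | ha1
      · left; rw [ha1, mul_one] at hdet'; exact hdet'
      · right; rw [ha1] at hdet'; linear_combination -hdet'

lemma mem_pmGamma1 {M : ℕ} {γ : SL(2, ℤ)} : γ ∈ pmGamma1 M ↔ ((γ 1 0 : ℤ) : ZMod M) = 0 ∧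
    (((γ 1 1 : ℤ) : ZMod M) = 1 ∨ ((γ 1 1 : ℤ) : ZMod M) = -1) := Iff.rfl

lemma mem_pmGamma1_iff_dvd {M : ℕ} {γ : SL(2, ℤ)} : γ ∈ pmGamma1 M ↔ (M : ℤ) ∣ γ 1 0 ∧
    ((M : ℤ) ∣ γ 1 1 - 1 ∨ (M : ℤ) ∣ γ 1 1 + 1) := by
  have h1 : (M : ℤ) ∣ γ 1 1 - 1 ↔ ((γ 1 1 : ℤ) : ZMod M) = 1 := by
    rw [← ZMod.intCast_zmod_eq_zero_iff_dvd]; push_cast; rw [sub_eq_zero]
  have h2 : (M : ℤ) ∣ γ 1 1 + 1 ↔ ((γ 1 1 : ℤ) : ZMod M) = -1 := by
    rw [← ZMod.intCast_zmod_eq_zero_iff_dvd]; push_cast; rw [add_eq_zero_iff_eq_neg]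
  rw [mem_pmGamma1, h1, h2, ZMod.intCast_zmod_eq_zero_iff_dvd]

lemma neg_one_mem_pmGamma1 (M : ℕ) : (-1 : SL(2, ℤ)) ∈ pmGamma1 M := by
  rw [mem_pmGamma1]
  simp

lemma Gamma1_le_pmGamma1 (M : ℕ) : Gamma1 M ≤ pmGamma1 M := by
  intro γ hγ
  rw [Gamma1_mem] at hγ
  exact ⟨hγ.2.2, Or.inl hγ.2.1⟩

lemma Gamma_le_pmGamma1 (M : ℕ) : CongruenceSubgroup.Gamma M ≤ pmGamma1 M := by
  intro γ hγ
  rw [Gamma_mem] at hγ
  exact ⟨hγ.2.2.1, Or.inl hγ.2.2.2⟩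

instance finiteIndex_pmGamma1 (M : ℕ) [NeZero M] : (pmGamma1 M).FiniteIndex :=
  Subgroup.finiteIndex_of_le (Gamma_le_pmGamma1 M)

instance fintypeQuotPmGamma1 (M : ℕ) [NeZero M] : Fintype (SL(2, ℤ) ⧸ pmGamma1 M) :=
  Subgroup.fintypeQuotientOfFiniteIndex

/-! ### The function `f_{(0,1)}` -/

/-- the vector `(0, 1)` -/
def e01 : Fin 2 → ℤ := ![0, 1]

lemma rowMul_e01_zero (γ : SL(2, ℤ)) : rowMul e01 γ 0 = γ 1 0 := by
  rw [rowMul_zero]; simp [e01]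

lemma rowMul_e01_one (γ : SL(2, ℤ)) : rowMul e01 γ 1 = γ 1 1 := by
  rw [rowMul_one]; simp [e01]

section

variable {M : ℕ} [NeZero M]

lemma nz_e01 (hM : 1 < M) : NZ M e01 := by
  rintro ⟨-, h⟩
  have h1 : (M : ℤ) ∣ 1 := by simpa [e01] using h
  have h2 := Int.le_of_dvd one_pos h1
  omega

/-- `f_{(0,1)}` is invariant under `±Γ₁(M)` -/
lemma fricke_e01_smul {γ : SL(2, ℤ)} (hγ : γ ∈ pmGamma1 M) (τ : ℍ) :
    fricke M e01 (γ • τ) = fricke M e01 τ := by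
  rw [fricke_smul]
  rw [mem_pmGamma1_iff_dvd] at hγ
  obtain ⟨h0, h1 | h1⟩ := hγ
  · refine congrFun (fricke_congr M fun i => ?_) τ
    fin_cases i
    · show (M : ℤ) ∣ rowMul e01 γ 0 - e01 0
      rw [rowMul_e01_zero]; simpa [e01] using h0
    · show (M : ℤ) ∣ rowMul e01 γ 1 - e01 1
      rw [rowMul_e01_one]; simpa [e01] using h1
  · rw [← fricke_neg M e01]
    refine congrFun (fricke_congr M fun i => ?_) τ
    fin_cases i
    · show (M : ℤ) ∣ rowMul e01 γ 0 - (-e01) 0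
      rw [rowMul_e01_zero]; simpa [e01] using h0
    · show (M : ℤ) ∣ rowMul e01 γ 1 - (-e01) 1
      rw [rowMul_e01_one]; simpa [e01] using h1

theorem isWH0_fricke_e01 (hM : 1 < M) : IsWH0 (pmGamma1 M) (fricke M e01) where
  mdiff := mdifferentiable_fricke (nz_e01 hM)
  smul_eq := fun _ hγ z => fricke_e01_smul hγ z
  exists_bdd := (isWH0_fricke (nz_e01 hM)).exists_bdd

/-- `f_{(0,1)}` as an element of `WH0 (±Γ₁(M))` -/
def frickeWH0 (hM : 1 < M) : WH0 (pmGamma1 M) := ⟨fricke M e01, isWH0_fricke_e01 hM⟩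

lemma ee_int_div_eq_one_iff (x : ℤ) : ee ((x : ℂ) / M) = 1 ↔ (M : ℤ) ∣ x := by
  have hM : (M : ℂ) ≠ 0 := Nat.cast_ne_zero.2 (NeZero.ne M)
  rw [ee_eq_one_iff]
  constructor
  · rintro ⟨n, hn⟩
    rw [eq_div_iff hM] at hn
    exact ⟨n, by
      have : ((n * (M : ℤ) : ℤ) : ℂ) = ((x : ℤ) : ℂ) := by push_cast; exact hn
      have := Int.cast_injective this
      linarith⟩
  · rintro ⟨n, rfl⟩
    exact ⟨n, by push_cast; field_simp⟩

/-- **the stabiliser of `f_{(0,1)}` is `±Γ₁(M)`** -/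
theorem mem_pmGamma1_of_fricke_eq (hM : 1 < M) {g : SL(2, ℤ)}
    (h : ∀ τ : ℍ, fricke M e01 (g • τ) = fricke M e01 τ) : g ∈ pmGamma1 M := by
  have hv0 : NZ M e01 := nz_e01 hM
  have hv : NZ M (rowMul e01 g) := (nz_rowMul g).2 hv0
  have lim1 := tendsto_fricke_mul hv
  have lim2 := tendsto_fricke_mul hv0
  have hfun : (fun τ : ℍ => fricke M (rowMul e01 g) τ * Δ τ) =
      fun τ : ℍ => fricke M e01 τ * Δ τ := by
    funext τ
    rw [← fricke_smul, h]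
  rw [hfun] at lim1
  have hlim := tendsto_nhds_unique lim1 lim2
  have hM1 : (1 : ℤ) % (M : ℤ) = 1 := Int.emod_eq_of_lt zero_le_one (by exact_mod_cast hM)
  have e0 : e01 0 % (M : ℤ) = 0 := by simp [e01]
  have e1 : e01 1 % (M : ℤ) = 1 := by simpa [e01] using hM1
  rw [e0, e1, rowMul_e01_zero, rowMul_e01_one] at hlim
  have hζ1 : ee (((1 : ℤ) : ℂ) / M) ≠ 1 := by
    rw [Ne, ee_int_div_eq_one_iff]
    intro h1
    have h2 := Int.le_of_dvd one_pos h1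
    omega
  have hφ : phi (ee (((1 : ℤ) : ℂ) / M)) ≠ 0 := by
    rw [phi, Ne, div_eq_zero_iff, not_or]
    exact ⟨ee_ne_zero _, pow_ne_zero 2 (sub_ne_zero.2 (Ne.symm hζ1))⟩
  rw [pwLim, pwLim, if_pos rfl] at hlim
  have hlim' := add_left_cancel hlim
  rw [mem_pmGamma1_iff_dvd]
  by_cases ha : g 1 0 % (M : ℤ) = 0
  · have hd0 : (M : ℤ) ∣ g 1 0 := Int.dvd_of_emod_eq_zero ha
    refine ⟨hd0, ?_⟩
    rw [if_pos ha] at hlim'
    have hnd : ¬ (M : ℤ) ∣ g 1 1 := by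
      intro hd1
      apply hv
      rw [rowMul_e01_zero, rowMul_e01_one]
      exact ⟨hd0, hd1⟩
    have hb1 : ee (((g 1 1 % (M : ℤ) : ℤ) : ℂ) / M) ≠ 1 := by
      rw [Ne, ee_int_div_eq_one_iff, dvd_emod_iff]
      exact hnd
    rcases (phi_eq_iff hb1 hζ1).1 hlim' with h1 | h1
    · left
      have h2 : ee (((g 1 1 % (M : ℤ) - 1 : ℤ) : ℂ) / M) = 1 := by
        have : (((g 1 1 % (M : ℤ) - 1 : ℤ) : ℂ) / M) =
            ((g 1 1 % (M : ℤ) : ℤ) : ℂ) / M + -(((1 : ℤ) : ℂ) / M) := by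
          push_cast; ring
        rw [this, ee_add, ee_neg, h1, mul_inv_cancel₀ (ee_ne_zero _)]
      rw [ee_int_div_eq_one_iff] at h2
      have h3 : (M : ℤ) ∣ g 1 1 - g 1 1 % (M : ℤ) :=
        ⟨g 1 1 / (M : ℤ), by linarith [Int.emod_add_mul_ediv (g 1 1) (M : ℤ)]⟩
      have := dvd_add h2 h3
      have e : g 1 1 % (M : ℤ) - 1 + (g 1 1 - g 1 1 % (M : ℤ)) = g 1 1 - 1 := by ring
      rwa [e] at this
    · right
      have h2 : ee (((g 1 1 % (M : ℤ) + 1 : ℤ) : ℂ) / M) = 1 := by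
        have : (((g 1 1 % (M : ℤ) + 1 : ℤ) : ℂ) / M) =
            ((g 1 1 % (M : ℤ) : ℤ) : ℂ) / M + (((1 : ℤ) : ℂ) / M) := by
          push_cast; ring
        rw [this, ee_add, h1]
      rw [ee_int_div_eq_one_iff] at h2
      have h3 : (M : ℤ) ∣ g 1 1 - g 1 1 % (M : ℤ) :=
        ⟨g 1 1 / (M : ℤ), by linarith [Int.emod_add_mul_ediv (g 1 1) (M : ℤ)]⟩
      have := dvd_add h2 h3
      have e : g 1 1 % (M : ℤ) + 1 + (g 1 1 - g 1 1 % (M : ℤ)) = g 1 1 + 1 := by ring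
      rwa [e] at this
  · rw [if_neg ha] at hlim'
    exact absurd hlim'.symm hφ

/-- `f_{(0,1)}` separates the cosets of `±Γ₁(M)` -/
theorem separates_frickeWH0 (hM : 1 < M) : Separates (pmGamma1 M) (frickeWH0 hM) := by
  intro g g' h
  apply mem_pmGamma1_of_fricke_eq hM
  intro τ
  have h1 := congrArg (fun f : Hol => (f : ℍ → ℂ) (g' • τ)) h
  simp only [Hol.slComp_apply] at h1
  rw [inv_smul_smul, ← mul_smul] at h1
  exact h1

/-- **the degree of `X(±Γ₁(M)) → X(1)`** -/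
theorem card_quot_eq_finrank (hM : 1 < M) :
    Fintype.card (SL(2, ℤ) ⧸ pmGamma1 M) = Module.finrank (Polynomial ℂ) (WH0 (pmGamma1 M)) :=
  card_eq_finrank_of_separates (separates_frickeWH0 hM)

/-- the chart data of `WH0 (±Γ₁(M))` -/
def pmGamma1Chart (hM : 1 < M) : ChartData ℂ (WH0 (pmGamma1 M)) (pmGamma1 M) :=
  wh0Chart (separates_frickeWH0 hM)

end

end Fermat.Agent.S48lib.X1.Wp
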