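/-
S48lib / X1 / Wp / Lambert (helper7).
Generic Lambert regrouping `∑_{d,m ≥ 1} g d m Q^{dm} = ∑_{n ≥ 1} (∑_{dm = n} g d m) Qⁿ`, and sums along
arithmetic progressions.
-/
import Mathlib

set_option autoImplicit false

noncomputable section

open Filter Topology

namespace Fermat.Agent.S48lib.X1.Wp

section Lambert

variable (g : ℕ → ℕ → ℂ)

lemma summable_lambert {C : ℝ} (hg : ∀ d m, ‖g d m‖ ≤ C * m) {Q : ℂ} (hQ : ‖Q‖ < 1) :
    Summable fun c : ℕ+ × ℕ+ => g c.1 c.2 * Q ^ ((c.1 : ℕ) * (c.2 : ℕ)) := by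
  have h := summable_prod_mul_pow (𝕜 := ℝ) 1 (r := ‖Q‖) (by simpa using hQ)
  refine Summable.of_norm_bounded (h.mul_left C) fun c => ?_
  rw [norm_mul, norm_pow]
  calc ‖g c.1 c.2‖ * ‖Q‖ ^ ((c.1 : ℕ) * (c.2 : ℕ))
      ≤ (C * (c.2 : ℕ)) * ‖Q‖ ^ ((c.1 : ℕ) * (c.2 : ℕ)) :=
        mul_le_mul_of_nonneg_right (hg _ _) (by positivity)
    _ = C * (((c.2 : ℕ) : ℝ) ^ 1 * ‖Q‖ ^ ((c.1 : ℕ) * (c.2 : ℕ))) := by ring

lemma hasSum_lambert {Q : ℂ}
    (hs : Summable fun c : ℕ+ × ℕ+ => g c.1 c.2 * Q ^ ((c.1 : ℕ) * (c.2 : ℕ))) :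
    HasSum (fun n : ℕ+ => (∑ x ∈ (n : ℕ).divisorsAntidiagonal, g x.1 x.2) * Q ^ (n : ℕ))
      (∑' c : ℕ+ × ℕ+, g c.1 c.2 * Q ^ ((c.1 : ℕ) * (c.2 : ℕ))) := by
  have h1 := (sigmaAntidiagonalEquivProd.hasSum_iff
    (f := fun c : ℕ+ × ℕ+ => g c.1 c.2 * Q ^ ((c.1 : ℕ) * (c.2 : ℕ)))).2 hs.hasSum
  refine h1.sigma fun n => ?_
  have h2 := hasSum_fintype (fun x : (n : ℕ).divisorsAntidiagonal =>
    ((fun c : ℕ+ × ℕ+ => g c.1 c.2 * Q ^ ((c.1 : ℕ) * (c.2 : ℕ))) ∘ sigmaAntidiagonalEquivProd)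
      ⟨n, x⟩)
  convert h2 using 1
  rw [Finset.sum_mul, ← Finset.sum_coe_sort]
  refine Finset.sum_congr rfl fun x _ => ?_
  have hx := (Nat.mem_divisorsAntidiagonal.1 x.2).1
  simp only [Function.comp_apply, sigmaAntidiagonalEquivProd, divisorsAntidiagonalFactors,
    Equiv.coe_fn_mk, PNat.mk_coe]
  rw [hx]

end Lambert

/-- sums along the progression `r, r + M, r + 2M, …` (`1 ≤ r ≤ M`) -/
lemma hasSum_progression {M r : ℕ} (hr : 1 ≤ r) (hrM : r ≤ M) (F : ℕ → ℂ) {S : ℂ}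
    (h : HasSum (fun k : ℕ => F (r + M * k)) S) :
    HasSum (fun d : ℕ+ => if (M : ℤ) ∣ ((d : ℕ) : ℤ) - r then F d else 0) S := by
  let i : ℕ → ℕ+ := fun k => ⟨r + M * k, by omega⟩
  have hi : Function.Injective i := by
    intro k k' hkk
    have h1 : r + M * k = r + M * k' := congrArg PNat.val hkk
    have hM : 0 < M := by omega
    exact Nat.eq_of_mul_eq_mul_left hM (by omega)
  have hf : ∀ d ∉ Set.range i, (if (M : ℤ) ∣ ((d : ℕ) : ℤ) - r then F d else 0) = 0 := by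
    intro d hd
    rw [if_neg]
    rintro ⟨t, ht⟩
    apply hd
    have hd1 : (1 : ℤ) ≤ ((d : ℕ) : ℤ) := by exact_mod_cast d.2
    have hM : (0 : ℤ) < M := by omega
    have ht0 : 0 ≤ t := by
      by_contra hneg
      push Not at hneg
      have : (M : ℤ) * t ≤ -M := by nlinarith
      omega
    refine ⟨t.toNat, ?_⟩
    apply PNat.coe_injective
    show r + M * t.toNat = (d : ℕ)
    have : ((r + M * t.toNat : ℕ) : ℤ) = ((d : ℕ) : ℤ) := by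
      push_cast
      rw [Int.toNat_of_nonneg ht0]
      linarith
    exact_mod_cast this
  rw [← hi.hasSum_iff hf]
  refine h.congr_fun fun k => ?_
  simp only [Function.comp_apply, i, PNat.mk_coe]
  rw [if_pos]
  exact ⟨k, by push_cast; ring⟩

end Fermat.Agent.S48lib.X1.Wp
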