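/-
S48lib / X1 / Wp / QCoeff (helper7).
The expansion of the `q`-product `pwOf M a b τ` (`0 ≤ a < M`) as a power series in
`Q = q^{1/M} = e(τ/M)` with explicit coefficients: with `z = e(b/M)`,
`c₀ = 1/12 + [a = 0] φ(z)`, `c_n = ∑_{dm = n} m ([d ≡ a] z^m + [d ≡ -a] z^{-m} - 2 [M ∣ d])`.
-/
import Fermat.Agent.S48lib.X1.Wp.FrickeWH0
import Fermat.Agent.S48lib.X1.Wp.Lambert

set_option autoImplicit false

noncomputable section

open UpperHalfPlane hiding I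
open Complex Filter Topology
open scoped Real

namespace Fermat.Agent.S48lib.X1.Wp

lemma hasSum_phi_pnat {u : ℂ} (hu : ‖u‖ < 1) :
    HasSum (fun m : ℕ+ => ((m : ℕ) : ℂ) * u ^ (m : ℕ)) (phi u) := by
  have h := hasSum_phi hu
  rw [← PNat.coe_injective.hasSum_iff] at h
  · exact h
  · intro x hx
    have : x = 0 := by
      by_contra h0
      exact hx ⟨⟨x, Nat.pos_of_ne_zero h0⟩, rfl⟩
    subst this
    simp

lemma summable_phi_pow {u Q : ℂ} (hu : ‖u‖ ≤ 1) (hQ : ‖Q‖ < 1) :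
    Summable fun d : ℕ => phi (u * Q ^ (d + 1)) := by
  have h0 : 0 ≤ ‖Q‖ := norm_nonneg Q
  have h1 : 0 < (1 - ‖Q‖) ^ 2 := pow_pos (by linarith) 2
  refine Summable.of_norm_bounded
    (g := fun d : ℕ => ‖Q‖ ^ (d + 1) / (1 - ‖Q‖) ^ 2) ?_ fun d => ?_
  · have := (summable_geometric_of_lt_one h0 hQ).mul_left (‖Q‖ / (1 - ‖Q‖) ^ 2)
    refine this.congr fun d => ?_
    rw [pow_succ]
    ring
  · have hb : ‖u * Q ^ (d + 1)‖ ≤ ‖Q‖ ^ (d + 1) := by
      rw [norm_mul, norm_pow]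
      calc ‖u‖ * ‖Q‖ ^ (d + 1) ≤ 1 * ‖Q‖ ^ (d + 1) :=
            mul_le_mul_of_nonneg_right hu (by positivity)
        _ = ‖Q‖ ^ (d + 1) := one_mul _
    have hb' : ‖u * Q ^ (d + 1)‖ ≤ ‖Q‖ :=
      hb.trans (pow_le_of_le_one h0 hQ.le (Nat.succ_ne_zero d))
    exact (norm_phi_le' hb' hQ).trans (div_le_div_of_nonneg_right hb h1.le)

lemma summable_phi_progression {u Q : ℂ} (hu : ‖u‖ ≤ 1) (hQ : ‖Q‖ < 1) {M r : ℕ} (hM : 0 < M)
    (hr : 1 ≤ r) : Summable fun k : ℕ => phi (u * Q ^ (r + M * k)) := by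
  have hinj : Function.Injective fun k : ℕ => r - 1 + M * k := by
    intro k k' h
    have h' : r - 1 + M * k = r - 1 + M * k' := h
    exact Nat.eq_of_mul_eq_mul_left hM (by omega)
  have h := (summable_phi_pow hu hQ).comp_injective hinj
  refine h.congr fun k => ?_
  simp only [Function.comp_apply]
  have : r - 1 + M * k + 1 = r + M * k := by omega
  rw [this]

section

variable (M : ℕ) [NeZero M] (a : ℕ) (b : ℤ)

/-- `[M ∣ d - a]` -/
def ind1 (d : ℕ) : ℂ := if (M : ℤ) ∣ (d : ℤ) - a then 1 else 0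

/-- `[M ∣ d + a]` -/
def ind2 (d : ℕ) : ℂ := if (M : ℤ) ∣ (d : ℤ) + a then 1 else 0

/-- `[M ∣ d]` -/
def ind3 (d : ℕ) : ℂ := if (M : ℤ) ∣ (d : ℤ) then 1 else 0

/-- the root of unity `z = e(b/M)` -/
def zOf : ℂ := ee ((b : ℂ) / M)

lemma norm_zOf : ‖zOf M b‖ = 1 := by
  rw [zOf, norm_ee]
  have : ((b : ℂ) / M).im = 0 := by simp [Complex.div_natCast_im]
  rw [this]
  simp

lemma zOf_ne_zero : zOf M b ≠ 0 := ee_ne_zero _

/-- the Lambert coefficient -/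
def lamG (d m : ℕ) : ℂ :=
  (m : ℂ) * (ind1 M a d * zOf M b ^ m + ind2 M a d * (zOf M b)⁻¹ ^ m - 2 * ind3 M d)

/-- the coefficient of `Qⁿ` in `pwOf M a b` -/
def pwCoeff (n : ℕ) : ℂ :=
  if n = 0 then 1 / 12 + (if a = 0 then phi (zOf M b) else 0)
  else ∑ x ∈ n.divisorsAntidiagonal, lamG M a b x.1 x.2

lemma norm_ind_le_one (c : Prop) [Decidable c] : ‖(if c then (1 : ℂ) else 0)‖ ≤ 1 := by
  split_ifs <;> simp

lemma norm_lamG_le (d m : ℕ) : ‖lamG M a b d m‖ ≤ 4 * m := by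
  have hz : ‖zOf M b ^ m‖ = 1 := by rw [norm_pow, norm_zOf, one_pow]
  have hz' : ‖(zOf M b)⁻¹ ^ m‖ = 1 := by rw [norm_pow, norm_inv, norm_zOf, inv_one, one_pow]
  have h1 : ‖ind1 M a d * zOf M b ^ m‖ ≤ 1 := by
    rw [norm_mul, hz, mul_one]; exact norm_ind_le_one _
  have h2 : ‖ind2 M a d * (zOf M b)⁻¹ ^ m‖ ≤ 1 := by
    rw [norm_mul, hz', mul_one]; exact norm_ind_le_one _
  have h3 : ‖(2 : ℂ) * ind3 M d‖ ≤ 2 := by
    rw [norm_mul]
    have := norm_ind_le_one ((M : ℤ) ∣ (d : ℤ))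
    simp only [Complex.norm_ofNat]
    unfold ind3
    linarith
  have h4 : ‖ind1 M a d * zOf M b ^ m + ind2 M a d * (zOf M b)⁻¹ ^ m - 2 * ind3 M d‖ ≤ 4 := by
    calc _ ≤ ‖ind1 M a d * zOf M b ^ m + ind2 M a d * (zOf M b)⁻¹ ^ m‖ + ‖(2 : ℂ) * ind3 M d‖ :=
          norm_sub_le _ _
      _ ≤ ‖ind1 M a d * zOf M b ^ m‖ + ‖ind2 M a d * (zOf M b)⁻¹ ^ m‖ + ‖(2 : ℂ) * ind3 M d‖ :=
          add_le_add_left (norm_add_le _ _) _
      _ ≤ 4 := by linarith
  rw [lamG, norm_mul, Complex.norm_natCast, mul_comm]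
  exact mul_le_mul_of_nonneg_right h4 (Nat.cast_nonneg m)

end

section Main

variable {M : ℕ} [NeZero M] {a : ℕ} (ha : a < M) (b : ℤ) {Q : ℂ} (hQ0 : Q ≠ 0) (hQ : ‖Q‖ < 1)

include hQ in
lemma norm_mul_pow_lt {u : ℂ} (hu : ‖u‖ = 1) {d : ℕ} (hd : 1 ≤ d) : ‖u * Q ^ d‖ < 1 := by
  rw [norm_mul, hu, one_mul, norm_pow]
  exact pow_lt_one₀ (norm_nonneg Q) hQ (by omega)

include hQ in
/-- the inner sums over `m` -/
lemma hasSum_lamG_inner (d : ℕ+) :
    HasSum (fun m : ℕ+ => lamG M a b d m * Q ^ ((d : ℕ) * (m : ℕ)))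
      (ind1 M a d * phi (zOf M b * Q ^ (d : ℕ)) + ind2 M a d * phi ((zOf M b)⁻¹ * Q ^ (d : ℕ))
        - 2 * ind3 M d * phi (Q ^ (d : ℕ))) := by
  have hd : 1 ≤ (d : ℕ) := d.2
  have hz' : ‖(zOf M b)⁻¹‖ = 1 := by rw [norm_inv, norm_zOf, inv_one]
  have h1 := (hasSum_phi_pnat (norm_mul_pow_lt hQ (norm_zOf M b) hd)).mul_left (ind1 M a d)
  have h2 := (hasSum_phi_pnat (norm_mul_pow_lt hQ hz' hd)).mul_left (ind2 M a d)
  have h3' : ‖Q ^ (d : ℕ)‖ < 1 := by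
    simpa using norm_mul_pow_lt hQ (norm_one (α := ℂ)) hd
  have h3 := (hasSum_phi_pnat h3').mul_left (2 * ind3 M d)
  refine ((h1.add h2).sub h3).congr_fun fun m => ?_
  rw [lamG, mul_pow, mul_pow, ← pow_mul, pow_mul]
  ring

include hQ in
/-- the Lambert regrouping for `pwOf` -/
lemma hasSum_pwCoeff_pnat {S : ℂ}
    (hS : HasSum (fun d : ℕ+ => ind1 M a d * phi (zOf M b * Q ^ (d : ℕ)) +
      ind2 M a d * phi ((zOf M b)⁻¹ * Q ^ (d : ℕ)) - 2 * ind3 M d * phi (Q ^ (d : ℕ))) S) :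
    HasSum (fun n : ℕ+ => pwCoeff M a b n * Q ^ (n : ℕ)) S := by
  have hs := summable_lambert (lamG M a b) (C := 4) (norm_lamG_le M a b) hQ
  have h1 := hs.hasSum.prod_fiberwise (hasSum_lamG_inner b hQ)
  have h2 := hasSum_lambert (lamG M a b) hs
  rw [h1.unique hS] at h2
  refine h2.congr_fun fun n => ?_
  rw [pwCoeff, if_neg n.ne_zero]

end Main

section Final

variable {M : ℕ} [NeZero M] {a : ℕ} (ha : a < M) (b : ℤ) {Q : ℂ} (hQ0 : Q ≠ 0) (hQ : ‖Q‖ < 1)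

include ha hQ0 in
lemma pwTerm_Q (k : ℕ) : pwTerm (zOf M b * Q ^ a) (Q ^ M) k =
    phi (zOf M b * Q ^ (a + M + M * k)) + phi ((zOf M b)⁻¹ * Q ^ (M - a + M * k))
      - 2 * phi (1 * Q ^ (M + M * k)) := by
  have hz := zOf_ne_zero M b
  have e1 : zOf M b * Q ^ a * (Q ^ M) ^ (k + 1) = zOf M b * Q ^ (a + M + M * k) := by
    rw [← pow_mul, mul_assoc, ← pow_add]
    congr 2
    ring
  have e2 : (zOf M b * Q ^ a)⁻¹ * (Q ^ M) ^ (k + 1) = (zOf M b)⁻¹ * Q ^ (M - a + M * k) := by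
    have h3 : M * (k + 1) = (M - a + M * k) + a := by
      have : M * (k + 1) = M + M * k := by ring
      omega
    rw [← pow_mul, h3, pow_add, mul_inv]
    field_simp
  have e3 : (Q ^ M) ^ (k + 1) = 1 * Q ^ (M + M * k) := by
    rw [← pow_mul, one_mul]
    congr 1
    ring
  rw [pwTerm, e1, e2, e3]

include hQ in
lemma hasSum_fam (u : ℂ) (hu : ‖u‖ ≤ 1) {r : ℕ} (hr : 1 ≤ r) (hrM : r ≤ M) :
    HasSum (fun d : ℕ+ => if (M : ℤ) ∣ ((d : ℕ) : ℤ) - r then phi (u * Q ^ (d : ℕ)) else 0)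
      (phi (u * Q ^ r) + ∑' k : ℕ, phi (u * Q ^ (r + M + M * k))) := by
  have hM : 0 < M := NeZero.pos M
  apply hasSum_progression hr hrM (fun d => phi (u * Q ^ d))
  have h1 := (summable_phi_progression hu hQ hM (r := r + M) (by omega)).hasSum
  have h1' : HasSum (fun k : ℕ => (fun k : ℕ => phi (u * Q ^ (r + M * k))) (k + 1))
      (∑' k : ℕ, phi (u * Q ^ (r + M + M * k))) := by
    refine h1.congr_fun fun k => ?_
    have : r + M * (k + 1) = r + M + M * k := by ring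
    simp only [this]
  have h2 := (hasSum_nat_add_iff (f := fun k : ℕ => phi (u * Q ^ (r + M * k))) 1).1 h1'
  simp only [Finset.range_one, Finset.sum_singleton, mul_zero, add_zero] at h2
  rw [add_comm]
  exact h2

include hQ in
lemma hasSum_fam' (u : ℂ) (hu : ‖u‖ ≤ 1) :
    HasSum (fun d : ℕ+ => if (M : ℤ) ∣ ((d : ℕ) : ℤ) - M then phi (u * Q ^ (d : ℕ)) else 0)
      (∑' k : ℕ, phi (u * Q ^ (M + M * k))) := by
  have hM : 0 < M := NeZero.pos M
  exact hasSum_progression hM le_rfl (fun d => phi (u * Q ^ d))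
    (summable_phi_progression hu hQ hM hM).hasSum

include ha hQ0 hQ in
/-- **the expansion of the `q`-product in powers of `Q = q^{1/M}`** -/
theorem hasSum_pw_Q :
    HasSum (fun n : ℕ => pwCoeff M a b n * Q ^ n) (pw (zOf M b * Q ^ a) (Q ^ M)) := by
  have hM : 0 < M := NeZero.pos M
  have hz1 : ‖zOf M b‖ ≤ 1 := (norm_zOf M b).le
  have hz2 : ‖(zOf M b)⁻¹‖ ≤ 1 := by rw [norm_inv, norm_zOf, inv_one]
  have h11 : ‖(1 : ℂ)‖ ≤ 1 := by simp
  -- the three families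
  have s1 := summable_phi_progression hz1 hQ hM (r := a + M) (by omega)
  have s2 := summable_phi_progression hz2 hQ hM (r := M - a) (by omega)
  have s3 := summable_phi_progression h11 hQ hM (r := M) hM
  set S1 := ∑' k : ℕ, phi (zOf M b * Q ^ (a + M + M * k)) with hS1
  set S2 := ∑' k : ℕ, phi ((zOf M b)⁻¹ * Q ^ (M - a + M * k)) with hS2
  set S3 := ∑' k : ℕ, phi (1 * Q ^ (M + M * k)) with hS3
  have f1 : HasSum (fun d : ℕ+ => ind1 M a d * phi (zOf M b * Q ^ (d : ℕ)))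
      ((if a = 0 then 0 else phi (zOf M b * Q ^ a)) + S1) := by
    by_cases h0 : a = 0
    · subst h0
      rw [if_pos rfl, zero_add]
      have := hasSum_fam' (M := M) hQ (zOf M b) hz1
      simp only [zero_add] at hS1
      rw [hS1]
      refine this.congr_fun fun d => ?_
      simp only [ind1]
      have e : (M : ℤ) ∣ ((d : ℕ) : ℤ) - ((0 : ℕ) : ℤ) ↔ (M : ℤ) ∣ ((d : ℕ) : ℤ) - M := by
        rw [Nat.cast_zero, sub_zero]
        exact (dvd_sub_self_right).symm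
      split_ifs with h1 h2 h2
      · rw [one_mul]
      · exact absurd (e.1 h1) h2
      · exact absurd (e.2 h2) h1
      · rw [zero_mul]
    · rw [if_neg h0]
      have := hasSum_fam (M := M) hQ (zOf M b) hz1 (r := a) (by omega) ha.le
      refine this.congr_fun fun d => ?_
      simp only [ind1]
      split_ifs <;> simp
  have f2 : HasSum (fun d : ℕ+ => ind2 M a d * phi ((zOf M b)⁻¹ * Q ^ (d : ℕ))) S2 := by
    by_cases h0 : a = 0
    · subst h0
      have := hasSum_fam' (M := M) hQ (zOf M b)⁻¹ hz2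
      simp only [Nat.sub_zero] at hS2
      rw [hS2]
      refine this.congr_fun fun d => ?_
      simp only [ind2]
      have e : (M : ℤ) ∣ ((d : ℕ) : ℤ) + ((0 : ℕ) : ℤ) ↔ (M : ℤ) ∣ ((d : ℕ) : ℤ) - M := by
        rw [Nat.cast_zero, add_zero]
        exact (dvd_sub_self_right).symm
      split_ifs with h1 h2 h2
      · rw [one_mul]
      · exact absurd (e.1 h1) h2
      · exact absurd (e.2 h2) h1
      · rw [zero_mul]
    · have hr1 : 1 ≤ M - a := by omega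
      have hr2 : M - a ≤ M := by omega
      have h1 := hasSum_progression hr1 hr2 (fun d => phi ((zOf M b)⁻¹ * Q ^ d)) s2.hasSum
      refine h1.congr_fun fun d => ?_
      simp only [ind2]
      have e : (M : ℤ) ∣ ((d : ℕ) : ℤ) + (a : ℤ) ↔ (M : ℤ) ∣ ((d : ℕ) : ℤ) - ((M - a : ℕ) : ℤ) := by
        rw [Nat.cast_sub ha.le]
        have : ((d : ℕ) : ℤ) - ((M : ℤ) - a) = ((d : ℕ) : ℤ) + a - M := by ring
        rw [this]
        exact (dvd_sub_self_right).symm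
      split_ifs with h1 h2 h2
      · rw [one_mul]
      · exact absurd (e.1 h1) h2
      · exact absurd (e.2 h2) h1
      · rw [zero_mul]
  have f3 : HasSum (fun d : ℕ+ => 2 * ind3 M d * phi (Q ^ (d : ℕ))) (2 * S3) := by
    have := (hasSum_fam' (M := M) hQ 1 h11).mul_left 2
    refine this.congr_fun fun d => ?_
    simp only [ind3]
    have e : (M : ℤ) ∣ ((d : ℕ) : ℤ) ↔ (M : ℤ) ∣ ((d : ℕ) : ℤ) - M := (dvd_sub_self_right).symm
    split_ifs with h1 h2 h2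
    · rw [mul_one, one_mul]
    · exact absurd (e.1 h1) h2
    · exact absurd (e.2 h2) h1
    · simp
  have hS := (f1.add f2).sub f3
  have hmain := hasSum_pwCoeff_pnat b hQ hS
  have h5 := (hasSum_pnat_iff (f := fun n : ℕ => pwCoeff M a b n * Q ^ n)).1 hmain
  have e : pw (zOf M b * Q ^ a) (Q ^ M) = (if a = 0 then 0 else phi (zOf M b * Q ^ a)) + S1 + S2
      - 2 * S3 + (fun n : ℕ => pwCoeff M a b n * Q ^ n) 0 := by
    have ht : ∑' k : ℕ, pwTerm (zOf M b * Q ^ a) (Q ^ M) k = S1 + S2 - 2 * S3 := by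
      rw [hS1, hS2, hS3, ← tsum_mul_left, ← s1.tsum_add s2,
        ← (s1.add s2).tsum_sub (s3.mul_left 2)]
      exact tsum_congr fun k => pwTerm_Q ha b hQ0 k
    rw [pw, ht]
    simp only [pwCoeff, if_true, pow_zero, mul_one]
    by_cases h0 : a = 0
    · subst h0
      simp only [if_true, pow_zero, mul_one]
      ring
    · simp only [if_neg h0]
      ring
  rw [e]
  exact h5

end Final

/-- **the `Q`-expansion of `pwOf M a b`**, `Q = e(τ/M)`, for `0 ≤ a < M` -/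
theorem hasSum_pwOf {M : ℕ} [NeZero M] {a : ℕ} (ha : a < M) (b : ℤ) (τ : ℍ) :
    HasSum (fun n : ℕ => pwCoeff M a b n * ee ((τ : ℂ) / M) ^ n) (pwOf M (a : ℤ) b τ) := by
  have hM : (M : ℂ) ≠ 0 := Nat.cast_ne_zero.2 (NeZero.ne M)
  have hMr : (0 : ℝ) < M := Nat.cast_pos.2 (NeZero.pos M)
  have hQ : ‖ee ((τ : ℂ) / M)‖ < 1 := by
    apply norm_ee_lt_one
    rw [Complex.div_natCast_im]
    exact div_pos τ.im_pos hMr
  have h := hasSum_pw_Q ha b (ee_ne_zero ((τ : ℂ) / M)) hQ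
  have e1 : ee ((τ : ℂ) / M) ^ M = ee (τ : ℂ) := by
    rw [← ee_nat_mul]
    congr 1
    field_simp
  have e2 : zOf M b * ee ((τ : ℂ) / M) ^ a = wOf M (a : ℤ) b τ := by
    rw [zOf, wOf, ← ee_nat_mul, ← ee_add]
    congr 1
    push_cast
    field_simp
    ring
  rw [e1, e2] at h
  exact h

/-- the `Q`-expansion of the `q`-product of the Fricke function `f_v` (any `v`), `Q = e(τ/M)`:
`f_v Δ = E₄ E₆ · ∑ c_n Qⁿ` by `fricke_mul_discriminant`. -/
theorem hasSum_pwOf_emod {M : ℕ} [NeZero M] (v : Fin 2 → ℤ) (τ : ℍ) :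
    HasSum (fun n : ℕ => pwCoeff M (v 0 % (M : ℤ)).toNat (v 1 % (M : ℤ)) n * ee ((τ : ℂ) / M) ^ n)
      (pwOf M (v 0 % (M : ℤ)) (v 1 % (M : ℤ)) τ) := by
  have h0 : 0 ≤ v 0 % (M : ℤ) := emod_nonneg' (M := M) (v 0)
  have h1 : v 0 % (M : ℤ) < M := emod_lt' (M := M) (v 0)
  have ha : (v 0 % (M : ℤ)).toNat < M := by
    have : ((v 0 % (M : ℤ)).toNat : ℤ) < M := by rw [Int.toNat_of_nonneg h0]; exact h1
    exact_mod_cast this
  have h := hasSum_pwOf ha (v 1 % (M : ℤ)) τ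
  rw [Int.toNat_of_nonneg h0] at h
  exact h

end Fermat.Agent.S48lib.X1.Wp
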